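import Fermat.Agent.S52.Short
set_option autoImplicit false
namespace Fermat.Agent.S52
open WeierstrassCurve
variable {F : Type*} [Field F] [DecidableEq F]

omit [DecidableEq F] in
theorem AddSub_eval (A B : F) (v : Fin 3 → F) :
    MvPolynomial.eval v (WeierstrassCurve.addSubMap (short A B) 0)
      = v 0 ^ 2 - 2 * A * v 0 * v 2 - 4 * B * v 1 * v 2 + A ^ 2 * v 2 ^ 2 ∧
    MvPolynomial.eval v (WeierstrassCurve.addSubMap (short A B) 1)
      = 2 * v 1 * v 0 + 2 * A * v 1 * v 2 + 4 * B * v 2 ^ 2 ∧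
    MvPolynomial.eval v (WeierstrassCurve.addSubMap (short A B) 2)
      = v 1 ^ 2 - 4 * v 0 * v 2 := by
  refine ⟨?_, ?_, ?_⟩ <;>
  simp [WeierstrassCurve.addSubMap, short_b₂, short_b₄, short_b₆, short_b₈]

/-- Mathlib's TODO for `WeierstrassCurve.addSubMap` (short curves):
`(x(P)x(Q) : x(P)+x(Q) : 1) ↦ (x(P+Q)x(P-Q) : x(P+Q)+x(P-Q) : 1)`, all degenerate cases included. -/
theorem addSubMap_sym2x (A B : F) (P Q : (short A B).Point) :
    ∃ κ : F, κ ≠ 0 ∧ ∀ i : Fin 3,
      MvPolynomial.eval (P.sym2x Q) (WeierstrassCurve.addSubMap (short A B) i)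
        = κ * ((P + Q).sym2x (P - Q)) i := by
  have key : ∀ (κ : F) (w : Fin 3 → F), κ ≠ 0 →
      (P.sym2x Q 0 ^ 2 - 2 * A * P.sym2x Q 0 * P.sym2x Q 2 - 4 * B * P.sym2x Q 1 * P.sym2x Q 2
        + A ^ 2 * P.sym2x Q 2 ^ 2 = κ * w 0) →
      (2 * P.sym2x Q 1 * P.sym2x Q 0 + 2 * A * P.sym2x Q 1 * P.sym2x Q 2
        + 4 * B * P.sym2x Q 2 ^ 2 = κ * w 1) →
      (P.sym2x Q 1 ^ 2 - 4 * P.sym2x Q 0 * P.sym2x Q 2 = κ * w 2) →
      (P + Q).sym2x (P - Q) = w →
      ∃ κ : F, κ ≠ 0 ∧ ∀ i : Fin 3,
      MvPolynomial.eval (P.sym2x Q) (WeierstrassCurve.addSubMap (short A B) i)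
        = κ * ((P + Q).sym2x (P - Q)) i := by
    intro κ w hκ h0 h1 h2 hw
    obtain ⟨e0, e1, e2⟩ := AddSub_eval A B (P.sym2x Q)
    refine ⟨κ, hκ, fun i => ?_⟩
    rw [hw]
    fin_cases i
    · exact e0.trans h0
    · exact e1.trans h1
    · exact e2.trans h2
  rcases P with _ | ⟨x₁, y₁, h₁⟩ <;> rcases Q with _ | ⟨x₂, y₂, h₂⟩
  · refine key 1 ![1, 0, 0] one_ne_zero ?_ ?_ ?_ ?_ <;>
      simp [← WeierstrassCurve.Affine.Point.zero_def]
  · refine key 1 ![x₂ * x₂, x₂ + x₂, 1] one_ne_zero ?_ ?_ ?_ ?_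
    · simp [← WeierstrassCurve.Affine.Point.zero_def]; ring
    · simp [← WeierstrassCurve.Affine.Point.zero_def]; ring
    · simp [← WeierstrassCurve.Affine.Point.zero_def]
    · simp [← WeierstrassCurve.Affine.Point.zero_def]
  · refine key 1 ![x₁ * x₁, x₁ + x₁, 1] one_ne_zero ?_ ?_ ?_ ?_
    · simp [← WeierstrassCurve.Affine.Point.zero_def]; ring
    · simp [← WeierstrassCurve.Affine.Point.zero_def]; ring
    · simp [← WeierstrassCurve.Affine.Point.zero_def]
    · simp [← WeierstrassCurve.Affine.Point.zero_def]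
  · have e₁ : y₁ ^ 2 = x₁ ^ 3 + A * x₁ + B := (short_equation A B x₁ y₁).1 h₁.1
    have e₂ : y₂ ^ 2 = x₂ ^ 3 + A * x₂ + B := (short_equation A B x₂ y₂).1 h₂.1
    simp only [WeierstrassCurve.Affine.Point.sym2x_some_some, Matrix.cons_val_zero,
      Matrix.cons_val_one, Matrix.cons_val] at key ⊢
    by_cases hx : x₁ = x₂
    · subst hx
      have hy : y₁ = y₂ ∨ y₁ = -y₂ := by
        have : (y₁ - y₂) * (y₁ + y₂) = 0 := by linear_combination e₁ - e₂
        rcases mul_eq_zero.1 this with h | h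
        · left; linear_combination h
        · right; linear_combination h
      by_cases h2 : y₁ = -y₁
      · have hyy : y₂ = y₁ := by
          rcases hy with h | h
          · exact h.symm
          · rw [h2, h, neg_neg]
        subst hyy
        have hns : 3 * x₁ ^ 2 + A ≠ 0 := by
          have := (WeierstrassCurve.Affine.nonsingular_iff _ _).1 h₁
          rcases this.2 with h | h
          · intro h0
            apply h
            simp only [short_a₁, short_a₂, short_a₄]
            linear_combination -h0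
          · exact absurd (by simpa using h2) h
        refine key ((3 * x₁ ^ 2 + A) ^ 2) ![1, 0, 0] (pow_ne_zero 2 hns) ?_ ?_ ?_ ?_
        · simp only [Matrix.cons_val_zero]
          linear_combination 8 * x₁ * e₁ - 4 * x₁ * y₂ * h2
        · simp only [Matrix.cons_val_one, Matrix.cons_val_zero]
          linear_combination (-4) * e₁ + 2 * y₂ * h2
        · simp; ring
        · rw [sub_self, WeierstrassCurve.Affine.Point.add_self_of_Y_eq
            (by rw [short_negY]; exact h2), WeierstrassCurve.Affine.Point.sym2x_zero_zero]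
      · have h2y : y₁ - -y₁ ≠ 0 := sub_ne_zero.2 h2
        have hne : y₁ ≠ (short A B).negY x₁ y₁ := by rw [short_negY]; exact h2
        refine key ((y₁ - -y₁) ^ 2)
          ![((3 * x₁ ^ 2 + A) / (y₁ - -y₁)) ^ 2 - x₁ - x₁, 1, 0] (pow_ne_zero 2 h2y) ?_ ?_ ?_ ?_
        · simp only [Matrix.cons_val_zero]
          have aux : ∀ d n x : F, d ≠ 0 → d ^ 2 * ((n / d) ^ 2 - x - x) = n ^ 2 - 2 * x * d ^ 2 := by
            intro d n x hd
            field_simp
            ring
          rw [aux _ _ _ h2y]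
          linear_combination 8 * x₁ * e₁
        · simp only [Matrix.cons_val_one, Matrix.cons_val_zero]
          linear_combination (-4) * e₁
        · simp; ring
        · rcases hy with h | h
          · subst h
            rw [sub_self, WeierstrassCurve.Affine.Point.add_self_of_Y_ne hne,
              WeierstrassCurve.Affine.Point.sym2x_some_zero]
            simp [WeierstrassCurve.Affine.addX, WeierstrassCurve.Affine.slope_of_Y_ne rfl hne,
              short_negY]
          · have hne' : y₁ ≠ (short A B).negY x₁ ((short A B).negY x₁ y₂) := by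
              rw [short_negY, short_negY, neg_neg, h]
              intro h3
              exact h2 (by rw [h, neg_neg]; exact h3)
            rw [sub_eq_add_neg, WeierstrassCurve.Affine.Point.neg_some,
              WeierstrassCurve.Affine.Point.add_of_Y_eq rfl (by rw [short_negY]; exact h),
              WeierstrassCurve.Affine.Point.add_of_Y_ne hne',
              WeierstrassCurve.Affine.Point.sym2x_zero_some,
              WeierstrassCurve.Affine.slope_of_Y_ne rfl hne']
            simp [WeierstrassCurve.Affine.addX, short_negY]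
    · have hd : x₁ - x₂ ≠ 0 := sub_ne_zero.2 hx
      refine key ((x₁ - x₂) ^ 2)
        ![(((y₁ - y₂) / (x₁ - x₂)) ^ 2 - x₁ - x₂) * (((y₁ + y₂) / (x₁ - x₂)) ^ 2 - x₁ - x₂),
          (((y₁ - y₂) / (x₁ - x₂)) ^ 2 - x₁ - x₂) + (((y₁ + y₂) / (x₁ - x₂)) ^ 2 - x₁ - x₂), 1]
        (pow_ne_zero 2 hd) ?_ ?_ ?_ ?_
      · simp only [Matrix.cons_val_zero]
        field_simp
        linear_combination (-(y₁ ^ 2 + (x₁ ^ 3 + A * x₁ + B) - 2 * y₂ ^ 2
          - 2 * (x₁ + x₂) * (x₁ - x₂) ^ 2)) * e₁
          - (y₂ ^ 2 + (x₂ ^ 3 + A * x₂ + B) - 2 * (x₁ ^ 3 + A * x₁ + B)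
          - 2 * (x₁ + x₂) * (x₁ - x₂) ^ 2) * e₂
      · simp only [Matrix.cons_val_one, Matrix.cons_val_zero]
        field_simp
        linear_combination (-2) * e₁ - 2 * e₂
      · simp; ring
      · rw [sub_eq_add_neg, WeierstrassCurve.Affine.Point.neg_some,
          WeierstrassCurve.Affine.Point.add_of_X_ne hx, WeierstrassCurve.Affine.Point.add_of_X_ne hx,
          WeierstrassCurve.Affine.Point.sym2x_some_some]
        simp [WeierstrassCurve.Affine.addX, WeierstrassCurve.Affine.slope_of_X_ne hx, short_negY]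

end Fermat.Agent.S52
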