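import Fermat.Agent.S52.FB.RatDeg
import Fermat.Agent.S52.FB.AddSub
set_option autoImplicit false
namespace Fermat.Agent.S52
open Polynomial

/-! ### Primitive triples of polynomials -/

section triples
variable {k : Type*} [Field k]

/-- The maximal degree of a triple. -/
noncomputable def Par_hdeg (s : Fin 3 → k[X]) : ℕ :=
  max (s 0).natDegree (max (s 1).natDegree (s 2).natDegree)

/-- A triple is primitive if it generates the unit ideal. -/
def Par_Prim (s : Fin 3 → k[X]) : Prop := ∃ c : Fin 3 → k[X], ∑ i, c i * s i = 1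

lemma Par_natDegree_le_hdeg (s : Fin 3 → k[X]) (i : Fin 3) : (s i).natDegree ≤ Par_hdeg s := by
  unfold Par_hdeg
  fin_cases i <;> simp

lemma Par_hdeg_le {s : Fin 3 → k[X]} {m : ℕ} (h : ∀ i, (s i).natDegree ≤ m) : Par_hdeg s ≤ m := by
  unfold Par_hdeg
  exact max_le (h 0) (max_le (h 1) (h 2))

lemma Par_le_hdeg_of_coeff {s : Fin 3 → k[X]} {m : ℕ} (h : ∃ i, (s i).coeff m ≠ 0) :
    m ≤ Par_hdeg s := by
  obtain ⟨i, hi⟩ := h
  exact (le_natDegree_of_ne_zero hi).trans (Par_natDegree_le_hdeg s i)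

/-- the vector of coefficients in top degree is nonzero for a primitive triple -/
lemma Par_exists_coeff_hdeg {s : Fin 3 → k[X]} (hs : Par_Prim s) :
    ∃ i, (s i).coeff (Par_hdeg s) ≠ 0 := by
  have hne : ∃ i, s i ≠ 0 := by
    by_contra hcon
    push Not at hcon
    obtain ⟨c, hc⟩ := hs
    simp [hcon] at hc
  by_contra hcon
  push Not at hcon
  -- some `s i` has natDegree equal to `hdeg`
  have : ∃ i, (s i).natDegree = Par_hdeg s := by
    unfold Par_hdeg
    rcases le_total (s 0).natDegree (max (s 1).natDegree (s 2).natDegree) with h | h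
    · rw [max_eq_right h]
      rcases le_total (s 1).natDegree (s 2).natDegree with h' | h'
      · exact ⟨2, (max_eq_right h').symm⟩
      · exact ⟨1, (max_eq_left h').symm⟩
    · exact ⟨0, (max_eq_left h).symm⟩
  obtain ⟨i, hi⟩ := this
  have h0 : s i = 0 := by
    have := hcon i
    rw [← hi, coeff_natDegree, leadingCoeff_eq_zero] at this
    exact this
  -- then `hdeg = 0`, all are constants with zero constant coefficient
  have hz : Par_hdeg s = 0 := by rw [← hi, h0, natDegree_zero]
  obtain ⟨j, hj⟩ := hne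
  apply hj
  have hd : (s j).natDegree = 0 := Nat.le_zero.1 (hz ▸ Par_natDegree_le_hdeg s j)
  rw [eq_C_of_natDegree_eq_zero hd]
  have := hcon j
  rw [hz] at this
  rw [this, C_0]

/-- Proportional primitive triples have the same degree. -/
lemma Par_hdeg_eq_of_prop {U V : Fin 3 → k[X]} (hU : Par_Prim U) (hV : Par_Prim V)
    (h : ∀ i j, U i * V j = U j * V i) : Par_hdeg U = Par_hdeg V := by
  obtain ⟨c, hc⟩ := hV
  obtain ⟨d, hd⟩ := hU
  set e : k[X] := ∑ j, c j * U j with he
  set e' : k[X] := ∑ j, d j * V j with he'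
  have h1 : ∀ i, U i = V i * e := by
    intro i
    calc U i = U i * ∑ j, c j * V j := by rw [hc, mul_one]
      _ = ∑ j, c j * (U i * V j) := by rw [Finset.mul_sum]; exact Finset.sum_congr rfl (fun j _ => by ring)
      _ = ∑ j, c j * (U j * V i) := by simp only [h i]
      _ = V i * e := by rw [he, Finset.mul_sum]; exact Finset.sum_congr rfl (fun j _ => by ring)
  have h2 : ∀ i, V i = U i * e' := by
    intro i
    calc V i = V i * ∑ j, d j * U j := by rw [hd, mul_one]
      _ = ∑ j, d j * (U j * V i) := by rw [Finset.mul_sum]; exact Finset.sum_congr rfl (fun j _ => by ring)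
      _ = ∑ j, d j * (U i * V j) := by simp only [h i]
      _ = U i * e' := by rw [he', Finset.mul_sum]; exact Finset.sum_congr rfl (fun j _ => by ring)
  have hee : e * e' = 1 := by
    have : e' * e = 1 := by
      calc e' * e = ∑ j, d j * (V j * e) := by rw [he', Finset.sum_mul]; exact Finset.sum_congr rfl (fun j _ => by ring)
        _ = ∑ j, d j * U j := by simp only [← h1]
        _ = 1 := hd
    rw [mul_comm]; exact this
  have hunit : IsUnit e := IsUnit.of_mul_eq_one _ hee
  have hdeg : ∀ i, (U i).natDegree = (V i).natDegree := by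
    intro i
    rw [h1 i]
    obtain ⟨r, hr, hre⟩ := Polynomial.isUnit_iff.1 hunit
    rw [← hre, mul_comm, natDegree_C_mul hr.ne_zero]
  unfold Par_hdeg
  rw [hdeg 0, hdeg 1, hdeg 2]

/-- The symmetric square of two pairs. -/
noncomputable def Par_sym (a b c d : k[X]) : Fin 3 → k[X] := ![a * c, a * d + b * c, b * d]

lemma Par_prim_sym {a b c d : k[X]} (hab : IsCoprime a b) (hcd : IsCoprime c d) :
    Par_Prim (Par_sym a b c d) := by
  obtain ⟨u, v, huv⟩ := (hab.pow (m := 2) (n := 2))
  obtain ⟨x, y, hxy⟩ := hcd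
  -- `c = (u a² + v b²) c`, `a² c = a (ac)`, `b² c = b (ad+bc) - a (bd)`
  -- `d = (u a² + v b²) d`, `a² d = a (ad+bc) - b (ac)`, `b² d = b (bd)`
  refine ⟨![x * u * a - y * u * b, x * v * b + y * u * a, -(x * v * a) + y * v * b], ?_⟩
  simp only [Par_sym, Fin.sum_univ_three, Matrix.cons_val_zero, Matrix.cons_val_one,
    Matrix.cons_val]
  linear_combination (x * c + y * d) * huv + hxy

lemma Par_pair_coeff {a b : k[X]} (hab : IsCoprime a b) :
    a.coeff (max a.natDegree b.natDegree) ≠ 0 ∨ b.coeff (max a.natDegree b.natDegree) ≠ 0 := by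
  rcases le_total a.natDegree b.natDegree with h | h
  · rw [max_eq_right h]
    by_cases hb : b = 0
    · left
      subst hb
      have ha : IsUnit a := isCoprime_zero_right.1 hab
      have h0 : a.natDegree = 0 := natDegree_eq_zero_of_isUnit ha
      simp only [natDegree_zero]
      rw [← h0, coeff_natDegree, Ne, leadingCoeff_eq_zero]
      exact ha.ne_zero
    · right
      rw [coeff_natDegree, Ne, leadingCoeff_eq_zero]; exact hb
  · rw [max_eq_left h]
    by_cases ha : a = 0
    · right
      subst ha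
      have hb : IsUnit b := isCoprime_zero_left.1 hab
      have h0 : b.natDegree = 0 := natDegree_eq_zero_of_isUnit hb
      simp only [natDegree_zero]
      rw [← h0, coeff_natDegree, Ne, leadingCoeff_eq_zero]
      exact hb.ne_zero
    · left
      rw [coeff_natDegree, Ne, leadingCoeff_eq_zero]; exact ha

lemma Par_hdeg_sym {a b c d : k[X]} (hab : IsCoprime a b) (hcd : IsCoprime c d) :
    Par_hdeg (Par_sym a b c d) =
      max a.natDegree b.natDegree + max c.natDegree d.natDegree := by
  set m := max a.natDegree b.natDegree with hm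
  set m' := max c.natDegree d.natDegree with hm'
  have ha : a.natDegree ≤ m := le_max_left _ _
  have hb : b.natDegree ≤ m := le_max_right _ _
  have hc : c.natDegree ≤ m' := le_max_left _ _
  have hd : d.natDegree ≤ m' := le_max_right _ _
  apply le_antisymm
  · apply Par_hdeg_le
    intro i
    fin_cases i
    · exact natDegree_mul_le_of_le ha hc
    · exact natDegree_add_le_of_degree_le (natDegree_mul_le_of_le ha hd)
        (natDegree_mul_le_of_le hb hc)
    · exact natDegree_mul_le_of_le hb hd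
  · apply Par_le_hdeg_of_coeff
    have e0 : (a * c).coeff (m + m') = a.coeff m * c.coeff m' := coeff_mul_add_eq_of_natDegree_le ha hc
    have e1 : (a * d + b * c).coeff (m + m') = a.coeff m * d.coeff m' + b.coeff m * c.coeff m' := by
      rw [coeff_add, coeff_mul_add_eq_of_natDegree_le ha hd, coeff_mul_add_eq_of_natDegree_le hb hc]
    have e2 : (b * d).coeff (m + m') = b.coeff m * d.coeff m' := coeff_mul_add_eq_of_natDegree_le hb hd
    by_contra hcon
    push Not at hcon
    have h0 := hcon 0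
    have h1 := hcon 1
    have h2 := hcon 2
    simp only [Par_sym, Matrix.cons_val_zero, Matrix.cons_val_one, Matrix.cons_val] at h0 h1 h2
    rw [e0] at h0
    rw [e1] at h1
    rw [e2] at h2
    rcases Par_pair_coeff hab with hA | hB
    · have hc0 : c.coeff m' = 0 := (mul_eq_zero.1 h0).resolve_left hA
      rw [hc0, mul_zero, add_zero] at h1
      have hd0 : d.coeff m' = 0 := (mul_eq_zero.1 h1).resolve_left hA
      rcases Par_pair_coeff hcd with h | h
      · exact h hc0
      · exact h hd0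
    · have hd0 : d.coeff m' = 0 := (mul_eq_zero.1 h2).resolve_left hB
      rw [hd0, mul_zero, zero_add] at h1
      have hc0 : c.coeff m' = 0 := (mul_eq_zero.1 h1).resolve_left hB
      rcases Par_pair_coeff hcd with h | h
      · exact h hc0
      · exact h hd0


lemma Par_prim_iff (s : Fin 3 → k[X]) : Par_Prim s ↔ Ideal.span (Set.range s) = ⊤ := by
  rw [Ideal.eq_top_iff_one, Ideal.mem_span_range_iff_exists_fun]
  rfl

end triples

/-! ### The explicit addition-subtraction forms -/

section forms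

/-- The three quadratic forms of `WeierstrassCurve.addSubMap` for `y² = x³ + A x + B`. -/
def Par_g {R : Type*} [CommRing R] (A B : R) (s : Fin 3 → R) : Fin 3 → R :=
  ![s 0 * s 0 - (2 * A) * (s 0 * s 2) - (4 * B) * (s 1 * s 2) + A ^ 2 * (s 2 * s 2),
    2 * (s 1 * s 0) + (2 * A) * (s 1 * s 2) + (4 * B) * (s 2 * s 2),
    s 1 * s 1 - 4 * (s 0 * s 2)]

lemma Par_eval_addSubMap {R : Type*} [CommRing R] (A B : R) (s : Fin 3 → R) (i : Fin 3) :
    MvPolynomial.eval s (WeierstrassCurve.addSubMap (short A B) i) = Par_g A B s i := by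
  fin_cases i <;>
    simp [WeierstrassCurve.addSubMap, Par_g, short_b₂, short_b₄, short_b₆, short_b₈] <;> ring

lemma Par_g_map {R R' : Type*} [CommRing R] [CommRing R'] (f : R →+* R') (A B : R)
    (s : Fin 3 → R) (i : Fin 3) : f (Par_g A B s i) = Par_g (f A) (f B) (fun j => f (s j)) i := by
  fin_cases i <;> simp [Par_g, map_ofNat]

lemma Par_g_smul {R : Type*} [CommRing R] (A B l : R) (s : Fin 3 → R) (i : Fin 3) :
    Par_g A B (fun j => l * s j) i = l ^ 2 * Par_g A B s i := by
  fin_cases i <;> simp [Par_g] <;> ring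

variable {k : Type*} [Field k]

lemma Par_isElliptic_field {A B : k} (hΔ : 4 * A ^ 3 + 27 * B ^ 2 ≠ 0) (h2 : (2 : k) ≠ 0) :
    (short A B).Δ ≠ 0 := by
  rw [short_Δ]
  have h16 : (16 : k) ≠ 0 := by
    have : (16 : k) = 2 ^ 4 := by norm_num
    rw [this]; exact pow_ne_zero _ h2
  simpa using ⟨h16, hΔ⟩

lemma Par_g_ne_zero {A B : k} (hΔ : 4 * A ^ 3 + 27 * B ^ 2 ≠ 0) (h2 : (2 : k) ≠ 0)
    {s : Fin 3 → k} (hs : ∃ i, s i ≠ 0) : ∃ i, Par_g A B s i ≠ 0 := by
  have : (short A B).IsElliptic := ⟨(Par_isElliptic_field hΔ h2).isUnit⟩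
  have hs' : s ≠ 0 := by
    obtain ⟨i, hi⟩ := hs
    intro h; exact hi (by rw [h]; rfl)
  have := WeierstrassCurve.addSubMap_ne_zero (short A B) hs'
  by_contra hcon
  push Not at hcon
  apply this
  ext i
  rw [Par_eval_addSubMap, hcon i]; rfl

lemma Par_prim_g {A B : k} (hΔ : 4 * A ^ 3 + 27 * B ^ 2 ≠ 0) (h2 : (2 : k) ≠ 0)
    {S : Fin 3 → k[X]} (hS : Par_Prim S) : Par_Prim (Par_g (C A) (C B) S) := by
  have : (short (C A) (C B)).IsElliptic := by
    refine ⟨?_⟩
    have : (short (C A) (C B)).Δ = C ((short A B).Δ) := by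
      rw [short_Δ, short_Δ]
      simp only [map_mul, map_add, map_pow, map_neg, map_ofNat]
    rw [this]
    exact (Par_isElliptic_field hΔ h2).isUnit.map C
  rw [Par_prim_iff] at hS ⊢
  rw [← Ideal.radical_eq_top]
  rw [eq_top_iff, ← hS, Ideal.span_le]
  rintro _ ⟨i, rfl⟩
  refine ⟨4, ?_⟩
  rw [← WeierstrassCurve.addSubMapCoeff_condition (short (C A) (C B)) S i]
  refine Ideal.sum_mem _ (fun j _ => Ideal.mul_mem_left _ _ (Ideal.subset_span ⟨j, ?_⟩))
  rw [Par_eval_addSubMap]

lemma Par_coeff_term (c : k) {p q : k[X]} {h : ℕ} (hp : p.natDegree ≤ h) (hq : q.natDegree ≤ h) :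
    (C c * (p * q)).coeff (h + h) = c * (p.coeff h * q.coeff h) := by
  rw [coeff_C_mul, coeff_mul_add_eq_of_natDegree_le hp hq]

lemma Par_natDegree_term (c : k) {p q : k[X]} {h : ℕ} (hp : p.natDegree ≤ h)
    (hq : q.natDegree ≤ h) : (C c * (p * q)).natDegree ≤ h + h :=
  (natDegree_C_mul_le _ _).trans (natDegree_mul_le_of_le hp hq)

lemma Par_natDegree_sub {p q : k[X]} {m : ℕ} (hp : p.natDegree ≤ m) (hq : q.natDegree ≤ m) :
    (p - q).natDegree ≤ m :=
  (natDegree_sub_le_of_le hp hq).trans (by simp)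

lemma Par_g_C (A B : k) (S : Fin 3 → k[X]) :
    Par_g (C A) (C B) S =
      ![C 1 * (S 0 * S 0) - C (2 * A) * (S 0 * S 2) - C (4 * B) * (S 1 * S 2)
          + C (A ^ 2) * (S 2 * S 2),
        C 2 * (S 1 * S 0) + C (2 * A) * (S 1 * S 2) + C (4 * B) * (S 2 * S 2),
        C 1 * (S 1 * S 1) - C 4 * (S 0 * S 2)] := by
  ext i : 1
  fin_cases i <;> simp [Par_g, map_ofNat]

lemma Par_hdeg_g {A B : k} (hΔ : 4 * A ^ 3 + 27 * B ^ 2 ≠ 0) (h2 : (2 : k) ≠ 0)
    {S : Fin 3 → k[X]} (hS : Par_Prim S) :
    Par_hdeg (Par_g (C A) (C B) S) = 2 * Par_hdeg S := by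
  set h := Par_hdeg S with hh
  have hd : ∀ i, (S i).natDegree ≤ h := Par_natDegree_le_hdeg S
  rw [two_mul]
  apply le_antisymm
  · apply Par_hdeg_le
    intro i
    rw [Par_g_C]
    fin_cases i
    · exact natDegree_add_le_of_degree_le (Par_natDegree_sub (Par_natDegree_sub
        (Par_natDegree_term _ (hd 0) (hd 0)) (Par_natDegree_term _ (hd 0) (hd 2)))
        (Par_natDegree_term _ (hd 1) (hd 2))) (Par_natDegree_term _ (hd 2) (hd 2))
    · exact natDegree_add_le_of_degree_le (natDegree_add_le_of_degree_le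
        (Par_natDegree_term _ (hd 1) (hd 0)) (Par_natDegree_term _ (hd 1) (hd 2)))
        (Par_natDegree_term _ (hd 2) (hd 2))
    · exact Par_natDegree_sub (Par_natDegree_term _ (hd 1) (hd 1))
        (Par_natDegree_term _ (hd 0) (hd 2))
  · apply Par_le_hdeg_of_coeff
    obtain ⟨i, hi⟩ := Par_g_ne_zero hΔ h2 (s := fun j => (S j).coeff h)
      (Par_exists_coeff_hdeg hS)
    refine ⟨i, ?_⟩
    have : (Par_g (C A) (C B) S i).coeff (h + h) = Par_g A B (fun j => (S j).coeff h) i := by
      rw [Par_g_C]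
      fin_cases i
      · simp only [Fin.zero_eta, Matrix.cons_val_zero, coeff_add, coeff_sub,
          Par_coeff_term _ (hd 0) (hd 0), Par_coeff_term _ (hd 0) (hd 2),
          Par_coeff_term _ (hd 1) (hd 2), Par_coeff_term _ (hd 2) (hd 2), Par_g, one_mul]
      · simp only [Fin.mk_one, Matrix.cons_val_one, Matrix.cons_val_zero, coeff_add,
          Par_coeff_term _ (hd 1) (hd 0), Par_coeff_term _ (hd 1) (hd 2),
          Par_coeff_term _ (hd 2) (hd 2), Par_g]
      · simp only [Fin.reduceFinMk, Matrix.cons_val, coeff_sub,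
          Par_coeff_term _ (hd 1) (hd 1), Par_coeff_term _ (hd 0) (hd 2), Par_g, one_mul]
    rw [this]
    exact hi

end forms

/-! ### Points -/

section points
variable {k : Type*} [Field k] {L : Type*} [Field L] [Algebra k L] [Algebra (RatFunc k) L]
  [IsScalarTower k (RatFunc k) L] {A B : k}

/-- The embedding `k[X] → L`. -/
noncomputable def Par_ι (k : Type*) [Field k] (L : Type*) [Field L] [Algebra (RatFunc k) L] :
    k[X] →+* L :=
  (algebraMap (RatFunc k) L).comp (algebraMap k[X] (RatFunc k))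

omit [Algebra k L] [IsScalarTower k (RatFunc k) L] in
lemma Par_ι_injective : Function.Injective (Par_ι k L) :=
  (algebraMap (RatFunc k) L).injective.comp (RatFunc.algebraMap_injective k)

lemma Par_ι_C (a : k) : Par_ι k L (C a) = algebraMap k L a := by
  simp only [Par_ι, RingHom.comp_apply, RatFunc.algebraMap_C]
  rw [IsScalarTower.algebraMap_apply k (RatFunc k) L a, RatFunc.algebraMap_eq_C]

omit [IsScalarTower k (RatFunc k) L] in
lemma Par_exists_pair (P : (EL L A B).Point) (hP : HasRatX P) :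
    ∃ a b : k[X], IsCoprime a b ∧ max a.natDegree b.natDegree = xdeg P ∧
      ∃ l : L, l ≠ 0 ∧ Par_ι k L a = l * P.xRep 0 ∧ Par_ι k L b = l * P.xRep 1 := by
  rcases P with _ | ⟨x, y, h⟩
  · refine ⟨1, 0, isCoprime_one_left, ?_, 1, one_ne_zero, ?_, ?_⟩
    · simp [xdeg]
    · simp [WeierstrassCurve.Affine.Point.xRep]
    · simp [WeierstrassCurve.Affine.Point.xRep]
  · have hP' : ∃ r : RatFunc k, algebraMap (RatFunc k) L r = x := hP
    refine ⟨hP'.choose.num, hP'.choose.denom, RatFunc.isCoprime_num_denom _, ?_,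
      Par_ι k L hP'.choose.denom, ?_, ?_, ?_⟩
    · simp only [xdeg, dif_pos hP', rdeg]
    · rw [Ne, map_eq_zero_iff _ Par_ι_injective]
      exact RatFunc.denom_ne_zero _
    · simp only [WeierstrassCurve.Affine.Point.xRep_some, Matrix.cons_val_zero]
      generalize hr : hP'.choose = r
      have hx : x = algebraMap (RatFunc k) L r := by rw [← hr]; exact hP'.choose_spec.symm
      have h0 : algebraMap (RatFunc k) L (algebraMap k[X] (RatFunc k) r.denom) ≠ 0 := by
        have : Par_ι k L r.denom ≠ 0 := by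
          rw [Ne, map_eq_zero_iff _ Par_ι_injective]
          exact RatFunc.denom_ne_zero _
        exact this
      have hr2 : algebraMap (RatFunc k) L r =
          algebraMap (RatFunc k) L (algebraMap k[X] (RatFunc k) r.num) /
            algebraMap (RatFunc k) L (algebraMap k[X] (RatFunc k) r.denom) := by
        rw [← map_div₀, RatFunc.num_div_denom]
      rw [hx, hr2]
      simp only [Par_ι, RingHom.comp_apply]
      field_simp
    · simp

omit [IsScalarTower k (RatFunc k) L] in
lemma Par_ι_sym {P Q : (EL L A B).Point} {a b c d : k[X]} {l l' : L}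
    (ha : Par_ι k L a = l * P.xRep 0) (hb : Par_ι k L b = l * P.xRep 1)
    (hc : Par_ι k L c = l' * Q.xRep 0) (hd : Par_ι k L d = l' * Q.xRep 1) (i : Fin 3) :
    Par_ι k L (Par_sym a b c d i) = (l * l') * P.sym2x Q i := by
  fin_cases i <;>
    simp [Par_sym, WeierstrassCurve.Affine.Point.sym2x, ha, hb, hc, hd] <;> ring

end points

variable {k : Type*} [Field k] {L : Type*} [Field L] [Algebra k L] [Algebra (RatFunc k) L]
  [IsScalarTower k (RatFunc k) L] [DecidableEq L] {A B : k}

theorem xdeg_parallelogram (hΔ : 4 * A ^ 3 + 27 * B ^ 2 ≠ 0) (h2 : (2 : k) ≠ 0)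
    (P Q : (EL L A B).Point)
    (hP : HasRatX P) (hQ : HasRatX Q) (hS : HasRatX (P + Q)) (hD : HasRatX (P - Q)) :
    xdeg (P + Q) + xdeg (P - Q) = 2 * xdeg P + 2 * xdeg Q := by
  obtain ⟨a, b, hab, hdP, l, hl, ha, hb⟩ := Par_exists_pair P hP
  obtain ⟨c, d, hcd, hdQ, l', hl', hc, hd⟩ := Par_exists_pair Q hQ
  obtain ⟨a', b', hab', hdS, m, hm, ha', hb'⟩ := Par_exists_pair (P + Q) hS
  obtain ⟨c', d', hcd', hdD, m', hm', hc', hd'⟩ := Par_exists_pair (P - Q) hD
  obtain ⟨κ, hκ, hκe⟩ := addSubMap_sym2x (algebraMap k L A) (algebraMap k L B) P Q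
  set S := Par_sym a b c d with hSdef
  set U := Par_g (C A) (C B) S with hU
  set V := Par_sym a' b' c' d' with hV
  have hSprim : Par_Prim S := Par_prim_sym hab hcd
  have hιU : ∀ i, Par_ι k L (U i) = ((l * l') ^ 2 * κ) * (P + Q).sym2x (P - Q) i := by
    intro i
    rw [hU, Par_g_map, Par_ι_C, Par_ι_C]
    have : (fun j => Par_ι k L (S j)) = fun j => (l * l') * P.sym2x Q j := by
      ext j; exact Par_ι_sym ha hb hc hd j
    rw [this, Par_g_smul, ← Par_eval_addSubMap, hκe i]
    ring
  have hιV : ∀ i, Par_ι k L (V i) = (m * m') * (P + Q).sym2x (P - Q) i :=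
    fun i => Par_ι_sym ha' hb' hc' hd' i
  have hprop : ∀ i j, U i * V j = U j * V i := by
    intro i j
    apply Par_ι_injective (k := k) (L := L)
    rw [map_mul, map_mul, hιU, hιU, hιV, hιV]
    ring
  have h1 := Par_hdeg_eq_of_prop (Par_prim_g hΔ h2 hSprim) (Par_prim_sym hab' hcd') hprop
  rw [Par_hdeg_g hΔ h2 hSprim, Par_hdeg_sym hab hcd, Par_hdeg_sym hab' hcd', hdP, hdQ, hdS,
    hdD] at h1
  omega

end Fermat.Agent.S52
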