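import Fermat.Agent.S52.FB.CountPoly
set_option autoImplicit false
namespace Fermat.Agent.S52
open Polynomial

/-! ### FB5, point count -/

variable (p : ℕ) [Fact p.Prime] (A B : ZMod p)

lemma Count_two_ne_zero (hp : 5 ≤ p) : (2 : ZMod p) ≠ 0 := by
  intro h
  have : ((2 : ℕ) : ZMod p) = 0 := by exact_mod_cast h
  rw [ZMod.natCast_eq_zero_iff] at this
  exact absurd (Nat.le_of_dvd (by norm_num) this) (by omega)

/-- points of `y² = x³ + A x + B` as pairs -/
noncomputable def Count_equiv (hp : 5 ≤ p) (hΔ : 4 * A ^ 3 + 27 * B ^ 2 ≠ 0) :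
    (short A B).Point ≃ Option (Σ a : ZMod p, {b : ZMod p // b ^ 2 = a ^ 3 + A * a + B}) where
  toFun P := match P with
    | 0 => none
    | .some x y h => some ⟨x, y, (short_equation A B x y).1 h.1⟩
  invFun q := match q with
    | none => 0
    | some ⟨a, b, hb⟩ =>
      .some a b (short_nonsingular_of_equation A B hΔ (Count_two_ne_zero p hp) hb)
  left_inv P := by
    rcases P with _ | ⟨x, y, h⟩ <;> rfl
  right_inv q := by
    rcases q with _ | ⟨a, b, hb⟩ <;> rfl

lemma Count_card_sqrts (hp : 5 ≤ p) (a : ZMod p) :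
    Fintype.card {b : ZMod p // b ^ 2 = a ^ 3 + A * a + B} = 2 - Count_e p A B a := by
  have hF : ringChar (ZMod p) ≠ 2 := by
    rw [ZMod.ringChar_zmod_n]
    omega
  have h1 := quadraticChar_card_sqrts hF (a ^ 3 + A * a + B)
  have h2 : Fintype.card {b : ZMod p // b ^ 2 = a ^ 3 + A * a + B}
      = ({x : ZMod p | x ^ 2 = a ^ 3 + A * a + B}.toFinset).card := by
    rw [Fintype.card_subtype]
    congr 1
    ext x
    simp
  rw [h2]
  unfold Count_e
  split_ifs with h0 hsq
  · rw [h0, quadraticChar_zero] at h1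
    rw [h0]
    omega
  · rw [(quadraticChar_one_iff_isSquare h0).2 hsq] at h1
    omega
  · rw [quadraticChar_neg_one_iff_not_isSquare.2 hsq] at h1
    omega

theorem Count_card_points (hp : 5 ≤ p) (hΔ : 4 * A ^ 3 + 27 * B ^ 2 ≠ 0) :
    Nat.card (short A B).Point = 1 + ∑ a, (2 - Count_e p A B a) := by
  rw [Nat.card_congr (Count_equiv p A B hp hΔ), Nat.card_eq_fintype_card, Fintype.card_option,
    Fintype.card_sigma, add_comm]
  congr 1
  exact Finset.sum_congr rfl fun a _ => Count_card_sqrts p A B hp a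

end Fermat.Agent.S52
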