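import Fermat.Agent.S52.FB.RatDeg
import Fermat.Agent.S52.FB.CountPts
set_option autoImplicit false
namespace Fermat.Agent.S52
open Polynomial

lemma Count_xdeg_some {k : Type*} [Field k] {L : Type*} [Field L] [Algebra k L]
    [Algebra (RatFunc k) L] [IsScalarTower k (RatFunc k) L] {A B : k} {x y : L}
    (h : (EL L A B).Nonsingular x y) (r : RatFunc k) (hr : algebraMap (RatFunc k) L r = x) :
    xdeg (.some x y h : (EL L A B).Point) = rdeg r := by
  have hex : ∃ r : RatFunc k, algebraMap (RatFunc k) L r = x := ⟨r, hr⟩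
  have h1 : xdeg (.some x y h : (EL L A B).Point) = rdeg hex.choose := by
    unfold xdeg
    exact dif_pos hex
  rw [h1]
  congr 1
  exact (algebraMap (RatFunc k) L).injective (hex.choose_spec.trans hr.symm)

/-- `deg (φ - 1) = #E(𝔽_p)`. -/
theorem xdeg_frob_sub (p : ℕ) [Fact p.Prime] (hp : 5 ≤ p) (A B : ZMod p)
    (hΔ : 4 * A ^ 3 + 27 * B ^ 2 ≠ 0)
    {L : Type*} [Field L] [Algebra (ZMod p) L] [Algebra (RatFunc (ZMod p)) L]
    [IsScalarTower (ZMod p) (RatFunc (ZMod p)) L] [DecidableEq L]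
    (yy : L) (h1 : (EL L A B).Nonsingular (algebraMap (RatFunc (ZMod p)) L RatFunc.X) yy)
    (h2 : (EL L A B).Nonsingular ((algebraMap (RatFunc (ZMod p)) L RatFunc.X) ^ p) (yy ^ p)) :
    xdeg ((.some _ _ h2 : (EL L A B).Point) - .some _ _ h1) = Nat.card (short A B).Point := by
  rw [Count_card_points p A B hp hΔ, ← Count_rdeg p A B hp hΔ]
  set xx : L := algebraMap (RatFunc (ZMod p)) L RatFunc.X with hxx
  -- the ring hom `k[X] → L`
  set ι : (ZMod p)[X] →+* L :=
    (algebraMap (RatFunc (ZMod p)) L).comp (algebraMap (ZMod p)[X] (RatFunc (ZMod p))) with hι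
  have hιX : ι X = xx := by
    simp [hι, hxx, RatFunc.algebraMap_X]
  have hιC : ∀ c : ZMod p, ι (C c) = algebraMap (ZMod p) L c := by
    intro c
    simp only [hι, RingHom.comp_apply, RatFunc.algebraMap_C]
    rw [← RatFunc.algebraMap_eq_C, ← IsScalarTower.algebraMap_apply]
  have hιinj : Function.Injective ι :=
    (algebraMap (RatFunc (ZMod p)) L).injective.comp (RatFunc.algebraMap_injective (ZMod p))
  have hyy : yy ^ 2 = xx ^ 3 + algebraMap (ZMod p) L A * xx + algebraMap (ZMod p) L B :=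
    (short_equation _ _ _ _).1 h1.1
  have hιf : ι (Count_f p A B) = yy ^ 2 := by
    rw [hyy]
    simp [Count_f, hιX, hιC]
  have hιg : ι (Count_g p A B) = yy ^ (p - 1) := by
    rw [Count_g, map_pow, hιf, ← pow_mul]
    congr 1
    have := Count_two_mul_half p hp
    omega
  have hne : xx ^ p - xx ≠ 0 := by
    have : ι (X ^ p - X) ≠ 0 := by
      rw [Ne, map_eq_zero_iff ι hιinj]
      exact FiniteField.X_pow_card_sub_X_ne_zero _ (Fact.out : p.Prime).one_lt
    simpa [hιX] using this
  have hxne : xx ^ p ≠ xx := sub_ne_zero.1 hne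
  rw [sub_eq_add_neg, WeierstrassCurve.Affine.Point.neg_some,
    WeierstrassCurve.Affine.Point.add_some (fun h => hxne h.1)]
  apply Count_xdeg_some
  rw [WeierstrassCurve.Affine.slope_of_X_ne hxne, map_div₀]
  change ι (Count_N p A B) / ι ((X ^ p - X) ^ 2) = _
  have hN : ι (Count_N p A B) = (yy ^ p + yy) ^ 2 - (xx ^ p + xx) * (xx ^ p - xx) ^ 2 := by
    have hpp : yy ^ p = yy * yy ^ (p - 1) := by
      rw [← pow_succ']
      congr 1
      omega
    simp only [Count_N, map_sub, map_mul, map_pow, map_add, map_one, hιf, hιg, hιX]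
    rw [hpp]
    ring
  rw [hN]
  simp only [map_pow, map_sub, hιX, WeierstrassCurve.Affine.addX, short_a₁, short_a₂, short_negY]
  field_simp
  ring

end Fermat.Agent.S52
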