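import Fermat.Agent.S52.FB.MainGen
set_option autoImplicit false
set_option linter.unusedSectionVars false
namespace Fermat.Agent.S52
open Polynomial WeierstrassCurve.Affine

/-! ### FB6, part 4: specialisation by translation -/

lemma Main_nonsingular_of_map {F L : Type*} [Field F] [Field L] (σ : F →+* L) {A B : F} {A' B' : L}
    (hA : σ A = A') (hB : σ B = B') {x y : F} (h : (short A' B').Nonsingular (σ x) (σ y)) :
    (short A B).Nonsingular x y := by
  subst hA hB
  rw [← short_map] at h
  exact (WeierstrassCurve.Affine.map_nonsingular (short A B) σ.injective x y).1 h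

section
variable (p : ℕ) [Fact p.Prime] {A B : ZMod p}
variable {L : Type*} [Field L] [Algebra (ZMod p) L] [DecidableEq L]

/-- points with coordinates algebraic over `𝔽_p` -/
def Main_IsAlgPt : (short (algebraMap (ZMod p) L A) (algebraMap (ZMod p) L B)).Point → Prop
  | 0 => True
  | .some x y _ => IsAlgebraic (ZMod p) x ∧ IsAlgebraic (ZMod p) y

open Classical in
/-- the inclusion `E(𝔽̄_p) → E(L)` -/
noncomputable def Main_incl (A B : ZMod p) (L : Type*) [Field L] [Algebra (ZMod p) L]
    [DecidableEq L] :
    (short (algebraMap (ZMod p) (algebraicClosure (ZMod p) L) A)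
      (algebraMap (ZMod p) (algebraicClosure (ZMod p) L) B)).Point →+
    (short (algebraMap (ZMod p) L A) (algebraMap (ZMod p) L B)).Point :=
  mapShort' (algebraMap (algebraicClosure (ZMod p) L) L) (Main_map_zmod p _ A)
    (Main_map_zmod p _ B)

lemma Main_isAlgPt_iff (P : (short (algebraMap (ZMod p) L A) (algebraMap (ZMod p) L B)).Point) :
    Main_IsAlgPt p P ↔ P ∈ (Main_incl p A B L).range := by
  classical
  constructor
  · intro h
    rcases P with _ | ⟨x, y, hxy⟩
    · exact (Main_incl p A B L).range.zero_mem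
    · obtain ⟨hx, hy⟩ := h
      let x' : algebraicClosure (ZMod p) L := ⟨x, mem_algebraicClosure_iff.2 hx⟩
      let y' : algebraicClosure (ZMod p) L := ⟨y, mem_algebraicClosure_iff.2 hy⟩
      have hns : (short (algebraMap (ZMod p) (algebraicClosure (ZMod p) L) A)
          (algebraMap (ZMod p) (algebraicClosure (ZMod p) L) B)).Nonsingular x' y' :=
        Main_nonsingular_of_map (algebraMap (algebraicClosure (ZMod p) L) L)
          (Main_map_zmod p _ A) (Main_map_zmod p _ B) hxy
      refine ⟨.some x' y' hns, ?_⟩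
      rw [Main_incl, mapShort'_some]
      rfl
  · rintro ⟨Q, rfl⟩
    rcases Q with _ | ⟨x, y, hxy⟩
    · change Main_IsAlgPt p (Main_incl p A B L 0)
      rw [map_zero]
      trivial
    · rw [Main_incl, mapShort'_some]
      exact ⟨mem_algebraicClosure_iff.1 x.2, mem_algebraicClosure_iff.1 y.2⟩

lemma Main_isAlgPt_sub {P Q : (short (algebraMap (ZMod p) L A) (algebraMap (ZMod p) L B)).Point}
    (hP : Main_IsAlgPt p P) (hQ : Main_IsAlgPt p Q) : Main_IsAlgPt p (P - Q) := by
  rw [Main_isAlgPt_iff] at hP hQ ⊢
  exact sub_mem hP hQ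

variable [Algebra (RatFunc (ZMod p)) L] [IsScalarTower (ZMod p) (RatFunc (ZMod p)) L]

theorem Main_translate [IsAlgClosed L] [Algebra.IsAlgebraic (RatFunc (ZMod p)) L] {yy : L}
    (hη : (EL L A B).Nonsingular (algebraMap (RatFunc (ZMod p)) L RatFunc.X) yy)
    (hχ : (2 : ℤ) • Main_chi p A B L (.some _ _ hη) = 0)
    (P : (EL L A B).Point) (hP : Main_IsAlgPt p P) : (2 : ℤ) • Main_chi p A B L P = 0 := by
  have hXtr : Transcendental (ZMod p) (algebraMap (RatFunc (ZMod p)) L RatFunc.X) :=
    (transcendental_algebraMap_iff (algebraMap (RatFunc (ZMod p)) L).injective).2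
      RatFunc.transcendental_X
  have hαna : ¬ Main_IsAlgPt p ((.some _ _ hη : (EL L A B).Point) + P) := by
    intro h
    have := Main_isAlgPt_sub p h hP
    rw [add_sub_cancel_right] at this
    exact hXtr this.1
  have key : (2 : ℤ) • Main_chi p A B L ((.some _ _ hη : (EL L A B).Point) + P) = 0 := by
    generalize (.some _ _ hη : (EL L A B).Point) + P = α at hαna
    rcases α with _ | ⟨x, y, h⟩
    · exact absurd trivial hαna
    have hx : Transcendental (ZMod p) x := by
      intro hx
      apply hαna
      refine ⟨hx, IsAlgebraic.of_pow (n := 2) (by norm_num) ?_⟩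
      rw [(short_equation _ _ _ _).1 h.1]
      exact ((hx.pow 3).add ((isAlgebraic_algebraMap A).mul hx)).add (isAlgebraic_algebraMap B)
    obtain ⟨τ, hτ⟩ := Main_exists_extend (L := L) (Main_phi x hx).toRingHom
    have hτX : τ (algebraMap (RatFunc (ZMod p)) L RatFunc.X) = x := by
      rw [hτ]
      exact Main_phi_X x hx
    have h1 : (2 : ℤ) • Main_chi p A B L (Main_T p A B τ (.some _ _ hη)) = 0 := by
      rw [Main_T, ← Main_map_chi, ← map_zsmul, hχ, map_zero]
    rcases Main_T_eta p τ hη h hτX with e | e
    · rwa [e] at h1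
    · rw [e, map_neg, smul_neg, neg_eq_zero] at h1
      exact h1
  rw [map_add, smul_add, hχ, zero_add] at key
  exact key

end

end Fermat.Agent.S52
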