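import Mathlib
set_option autoImplicit false
namespace Fermat.Agent.S52

/-- Abstract form of "Frobenius satisfies its characteristic equation". -/
theorem quad_frobenius {G : Type*} [AddCommGroup G] (d : G → ℤ)
    (hpar : ∀ x y, d (x + y) + d (x - y) = 2 * d x + 2 * d y)
    (Φ : G →+ G) (q : ℤ) (hΦ : ∀ x, d (Φ x) = q * d x) (η : G) (hη : d η = 1)
    (hmul : d ((η + Φ η) + Φ (η + Φ η)) = d (η + Φ η) ^ 2) :
    d (Φ (Φ η) - (1 + q - d (Φ η - η)) • Φ η + q • η) = 0 := by
  have h0 : d 0 = 0 := by
    have := hpar 0 0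
    simp only [add_zero, sub_zero] at this
    omega
  have hcube : ∀ x y z,
      d (x + y + z) = d (x + y) + d (x + z) + d (y + z) - d x - d y - d z := by
    intro x y z
    have h1 := hpar (x + z) (y + z)
    have h2 := hpar (x + y + z) z
    have h3 := hpar x y
    have e1 : x + z + (y + z) = x + y + z + z := by abel
    have e2 : x + z - (y + z) = x - y := by abel
    have e3 : x + y + z - z = x + y := by abel
    rw [e1, e2] at h1
    rw [e3] at h2
    omega
  let B : G →+ G →+ ℤ :=
    AddMonoidHom.mk' (fun x => AddMonoidHom.mk' (fun y => d (x + y) - d x - d y) (by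
      intro y y'
      have := hcube x y y'
      rw [← add_assoc]
      omega)) (by
      intro x x'
      ext y
      have := hcube x x' y
      simp only [AddMonoidHom.mk'_apply, AddMonoidHom.add_apply]
      omega)
  have hB : ∀ x y, B x y = d (x + y) - d x - d y := fun _ _ => rfl
  have hdiag : ∀ x, B x x = 2 * d x := by
    intro x
    have := hpar x x
    rw [sub_self, h0] at this
    rw [hB]
    omega
  have hsymm : ∀ x y, B x y = B y x := by
    intro x y
    rw [hB, hB, add_comm]
    ring
  have hBΦ : ∀ x y, B (Φ x) (Φ y) = q * B x y := by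
    intro x y
    rw [hB, hB, ← map_add, hΦ, hΦ, hΦ]
    ring
  set e0 := η with he0
  set e1 := Φ e0 with he1
  set e2 := Φ e1 with he2
  set t := B e0 e1 with ht
  set s := B e0 e2 with hs
  have b00 : B e0 e0 = 2 := by rw [hdiag, hη]; norm_num
  have b11 : B e1 e1 = 2 * q := by rw [hdiag, he1, hΦ, hη]; ring
  have b22 : B e2 e2 = 2 * q ^ 2 := by rw [hdiag, he2, hΦ, he1, hΦ, hη]; ring
  have b10 : B e1 e0 = t := hsymm _ _
  have b20 : B e2 e0 = s := hsymm _ _
  have b12 : B e1 e2 = q * t := by rw [he2, he1, hBΦ]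
  have b21 : B e2 e1 = q * t := by rw [hsymm, b12]
  have hd1 : d e1 = q := by rw [he1, hΦ, hη, mul_one]
  -- the trace
  have ha : 1 + q - d (e1 - e0) = t := by
    have h1 := hpar e1 e0
    have h2 := hB e1 e0
    rw [b10] at h2
    rw [hd1, hη] at h1 h2
    omega
  -- the relation `s = t ^ 2 - 2 q`
  have hs' : s = t ^ 2 - 2 * q := by
    have h1 : d (e0 + e1) = t + 1 + q := by
      have := hB e0 e1
      rw [hd1, hη] at this
      omega
    have h2 : 2 * d (e0 + e1 + Φ (e0 + e1)) = 2 * (1 + 4 * q + q ^ 2 + 2 * t + s + 2 * q * t) := by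
      have e : Φ (e0 + e1) = e1 + e2 := by rw [map_add]
      rw [← hdiag, e]
      simp only [map_add, AddMonoidHom.add_apply, b00, b11, b22, b10, b20, b12, b21, ← ht, ← hs]
      ring
    rw [hmul, h1] at h2
    linarith
  rw [ha]
  have hfin : 2 * d (e2 - t • e1 + q • e0) = 0 := by
    rw [← hdiag]
    simp only [map_add, map_sub, map_zsmul, AddMonoidHom.add_apply, AddMonoidHom.sub_apply,
      AddMonoidHom.coe_smul, Pi.smul_apply, smul_eq_mul, b00, b11, b22, b10, b20, b12, b21,
      ← ht, ← hs]
    rw [hs']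
    ring
  omega

end Fermat.Agent.S52
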