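import Fermat.Agent.S52.FB.Parallelogram
import Fermat.Agent.S52.FB.Quad
import Fermat.Agent.S52.FB.Count
import Fermat.Agent.S52.FB.MainSpec
set_option autoImplicit false
namespace Fermat.Agent.S52
open Polynomial

/-- **Frobenius equation** (up to the harmless factor 2): `2 (φ² - t φ + p) = 0` on `E(F)`,
`t = p + 1 - #E(𝔽_p)`, `F` algebraic over `𝔽_p`. -/
theorem frobenius_equation (p : ℕ) [Fact p.Prime] (hp : 5 ≤ p) (A B : ZMod p)
    (hΔ : 4 * A ^ 3 + 27 * B ^ 2 ≠ 0)
    {F : Type*} [Field F] [Algebra (ZMod p) F] [Algebra.IsAlgebraic (ZMod p) F] [DecidableEq F]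
    (P : (short (algebraMap (ZMod p) F A) (algebraMap (ZMod p) F B)).Point) :
    (2 : ℤ) • (frobPt p A B (frobPt p A B P)
      - ((p : ℤ) + 1 - (Nat.card (short A B).Point : ℤ)) • frobPt p A B P + (p : ℤ) • P) = 0 := by
  classical
  rw [← Main_chi_apply]
  let L := AlgebraicClosure (RatFunc (ZMod p))
  let j : F →ₐ[ZMod p] L := IsAlgClosed.lift
  -- the generic point
  obtain ⟨yy, hyy⟩ := IsAlgClosed.exists_pow_nat_eq
    ((algebraMap (RatFunc (ZMod p)) L RatFunc.X) ^ 3
      + algebraMap (ZMod p) L A * algebraMap (RatFunc (ZMod p)) L RatFunc.X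
      + algebraMap (ZMod p) L B) (n := 2) (by norm_num)
  have hΔL : 4 * (algebraMap (ZMod p) L A) ^ 3 + 27 * (algebraMap (ZMod p) L B) ^ 2 ≠ 0 := by
    have : algebraMap (ZMod p) L (4 * A ^ 3 + 27 * B ^ 2) ≠ 0 := by
      rwa [Ne, map_eq_zero]
    rwa [map_add, map_mul, map_mul, map_pow, map_pow, map_ofNat, map_ofNat] at this
  have h2L : (2 : L) ≠ 0 := by
    have : algebraMap (ZMod p) L 2 ≠ 0 := by
      rw [Ne, map_eq_zero]
      exact Count_two_ne_zero p hp
    rwa [map_ofNat] at this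
  have hη : (EL L A B).Nonsingular (algebraMap (RatFunc (ZMod p)) L RatFunc.X) yy :=
    short_nonsingular_of_equation _ _ hΔL h2L hyy
  have hχ := Main_generic p hp hΔ hη
  -- transport to `L`
  apply mapShort'_injective j.toRingHom (Main_map_zmod p j.toRingHom A)
    (Main_map_zmod p j.toRingHom B)
  rw [map_zsmul, Main_map_chi, map_zero]
  apply Main_translate p hη hχ
  rcases P with _ | ⟨x, y, h⟩
  · change Main_IsAlgPt p (mapShort' j.toRingHom _ _ 0)
    rw [map_zero]
    trivial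
  · rw [mapShort'_some]
    exact ⟨(Algebra.IsAlgebraic.isAlgebraic x).algHom j, (Algebra.IsAlgebraic.isAlgebraic y).algHom j⟩

end Fermat.Agent.S52
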