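import Fermat.Agent.S52.FB.RatDeg
set_option autoImplicit false
namespace Fermat.Agent.S52
open Polynomial

/-! ### FB5, polynomial part -/

section general
variable {k : Type*} [Field k] [Fintype k]

lemma Count_prod_dvd (N : k[X]) (e : k → ℕ) (h1 : ∀ a, (X - C a) ^ (e a) ∣ N) :
    (∏ a, (X - C a) ^ (e a)) ∣ N := by
  refine Finset.prod_dvd_of_coprime ?_ fun a _ => h1 a
  intro a _ b _ hab
  exact ((pairwise_coprime_X_sub_C (K := k) Function.injective_id) hab).pow

lemma Count_coprime_aux (N : k[X]) (e : k → ℕ) (h1 : ∀ a, (X - C a) ^ (e a) ∣ N)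
    (h2 : ∀ a, e a < 2 → ¬ (X - C a) ^ (e a + 1) ∣ N) :
    ∃ N', N = (∏ a, (X - C a) ^ (e a)) * N' ∧ IsCoprime N' (∏ a, (X - C a) ^ (2 - e a)) := by
  obtain ⟨N', hN'⟩ := Count_prod_dvd N e h1
  refine ⟨N', hN', IsCoprime.prod_right fun a _ => ?_⟩
  by_cases ha : e a < 2
  · refine IsCoprime.pow_right ?_
    refine ((irreducible_X_sub_C a).coprime_iff_not_dvd.2 fun hd => h2 a ha ?_).symm
    rw [hN', pow_succ]
    exact mul_dvd_mul (Finset.dvd_prod_of_mem (fun a => (X - C a) ^ (e a)) (Finset.mem_univ a)) hd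
  · have : 2 - e a = 0 := by omega
    rw [this, pow_zero]
    exact isCoprime_one_right

lemma Count_natDegree_prod (e : k → ℕ) :
    (∏ a, (X - C a) ^ (e a) : k[X]).natDegree = ∑ a, e a := by
  rw [natDegree_prod _ _ fun a _ => pow_ne_zero _ (X_sub_C_ne_zero a)]
  refine Finset.sum_congr rfl fun a _ => ?_
  rw [natDegree_pow, natDegree_X_sub_C, mul_one]

/-- the degree of `N / ∏ (X - a) ^ 2` -/
lemma Count_rdeg_aux (N : k[X]) (e : k → ℕ) (he : ∀ a, e a ≤ 2)
    (h1 : ∀ a, (X - C a) ^ (e a) ∣ N)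
    (h2 : ∀ a, e a < 2 → ¬ (X - C a) ^ (e a + 1) ∣ N)
    (hN : N.natDegree = 2 * Fintype.card k + 1) :
    rdeg (algebraMap k[X] (RatFunc k) N / algebraMap k[X] (RatFunc k) ((∏ a, (X - C a)) ^ 2))
      = 1 + ∑ a, (2 - e a) := by
  obtain ⟨N', hN', hcop⟩ := Count_coprime_aux N e h1 h2
  set G : k[X] := ∏ a, (X - C a) ^ (e a) with hG
  set D' : k[X] := ∏ a, (X - C a) ^ (2 - e a) with hD'
  have hG0 : G ≠ 0 := Finset.prod_ne_zero_iff.2 fun a _ => pow_ne_zero _ (X_sub_C_ne_zero a)
  have hD'0 : D' ≠ 0 := Finset.prod_ne_zero_iff.2 fun a _ => pow_ne_zero _ (X_sub_C_ne_zero a)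
  have hD : (∏ a, (X - C a) : k[X]) ^ 2 = G * D' := by
    rw [hG, hD', ← Finset.prod_mul_distrib, ← Finset.prod_pow]
    refine Finset.prod_congr rfl fun a _ => ?_
    rw [← pow_add, Nat.add_sub_cancel' (he a)]
  have hN0 : N ≠ 0 := by
    intro h
    rw [h, natDegree_zero] at hN
    omega
  have hN'0 : N' ≠ 0 := by
    rintro rfl
    exact hN0 (by rw [hN', mul_zero])
  have hq : algebraMap k[X] (RatFunc k) N / algebraMap k[X] (RatFunc k) ((∏ a, (X - C a)) ^ 2)
      = algebraMap k[X] (RatFunc k) N' / algebraMap k[X] (RatFunc k) D' := by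
    rw [hD, hN', map_mul, map_mul]
    have : algebraMap k[X] (RatFunc k) G ≠ 0 := by
      simpa using hG0
    exact mul_div_mul_left _ _ this
  rw [hq, rdeg_div N' D' hD'0 hcop]
  have e1 : N.natDegree = G.natDegree + N'.natDegree := by
    rw [hN', natDegree_mul hG0 hN'0]
  have e2 : G.natDegree = ∑ a, e a := Count_natDegree_prod e
  have e3 : D'.natDegree = ∑ a, (2 - e a) := Count_natDegree_prod _
  have e4 : ∑ a, e a + ∑ a, (2 - e a) = 2 * Fintype.card k := by
    rw [← Finset.sum_add_distrib, Finset.sum_congr rfl fun a _ => Nat.add_sub_cancel' (he a)]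
    simp [mul_comm]
  rw [e3]
  omega

end general

section specific
variable (p : ℕ) [Fact p.Prime] (A B : ZMod p)

/-- `f = X³ + A X + B` -/
noncomputable def Count_f : (ZMod p)[X] := X ^ 3 + C A * X + C B

/-- `g = f ^ ((p - 1) / 2)` -/
noncomputable def Count_g : (ZMod p)[X] := Count_f p A B ^ (p / 2)

/-- numerator of `x(φ η - η)` -/
noncomputable def Count_N : (ZMod p)[X] :=
  Count_f p A B * (Count_g p A B + 1) ^ 2 - (X ^ p + X) * (X ^ p - X) ^ 2

open Classical in
/-- multiplicity of `X - a` in the gcd -/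
noncomputable def Count_e (a : ZMod p) : ℕ :=
  if a ^ 3 + A * a + B = 0 then 1 else if IsSquare (a ^ 3 + A * a + B) then 0 else 2

lemma Count_e_le (a : ZMod p) : Count_e p A B a ≤ 2 := by
  unfold Count_e
  split_ifs <;> omega

lemma Count_f_eval (a : ZMod p) : (Count_f p A B).eval a = a ^ 3 + A * a + B := by
  simp [Count_f]

lemma Count_g_eval (a : ZMod p) : (Count_g p A B).eval a = (a ^ 3 + A * a + B) ^ (p / 2) := by
  simp [Count_g, Count_f_eval]

lemma Count_f_natDegree : (Count_f p A B).natDegree = 3 := by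
  unfold Count_f
  compute_degree!

lemma Count_X_pow_sub_X_eval (a : ZMod p) : (X ^ p - X : (ZMod p)[X]).eval a = 0 := by
  simp [ZMod.pow_card]

lemma Count_dvd_X_pow_sub_X (a : ZMod p) : (X - C a) ∣ (X ^ p - X : (ZMod p)[X]) :=
  dvd_iff_isRoot.2 (Count_X_pow_sub_X_eval p a)

lemma Count_prod_X_sub_C : (∏ a : ZMod p, (X - C a)) = (X ^ p - X : (ZMod p)[X]) := by
  have hp1 : 1 < p := (Fact.out : p.Prime).one_lt
  have h1 : (X ^ p - X : (ZMod p)[X]).roots = Finset.univ.val := by
    have := FiniteField.roots_X_pow_card_sub_X (ZMod p)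
    rwa [ZMod.card] at this
  have hmonic : (X ^ p - X : (ZMod p)[X]).Monic := by
    apply monic_X_pow_sub
    rw [degree_X]
    exact_mod_cast hp1
  have hcard : Multiset.card (X ^ p - X : (ZMod p)[X]).roots = (X ^ p - X : (ZMod p)[X]).natDegree := by
    rw [h1, FiniteField.X_pow_card_sub_X_natDegree_eq _ hp1]
    simp [ZMod.card]
  have := prod_multiset_X_sub_C_of_monic_of_roots_card_eq hmonic hcard
  rw [← this, h1]
  rfl

lemma Count_two_mul_half (hp : 5 ≤ p) : 2 * (p / 2) + 1 = p := by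
  have hodd : p % 2 = 1 := by
    rcases (Fact.out : p.Prime).eq_two_or_odd with h | h
    · omega
    · exact h
  omega

lemma Count_f_pow : Count_f p A B ^ p = X ^ (3 * p) + C A * X ^ p + C B := by
  rw [← ZMod.expand_card]
  simp only [Count_f, map_add, map_mul, map_pow, expand_X, expand_C, ← pow_mul]
  rw [mul_comm p 3]

lemma Count_N_eq (hp : 5 ≤ p) : Count_N p A B = X ^ (2 * p + 1) +
    (C A * X ^ p + C B + 2 * Count_f p A B * Count_g p A B + Count_f p A B
      + X ^ (p + 2) - X ^ 3) := by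
  have h1 : Count_f p A B * Count_g p A B ^ 2 = X ^ (3 * p) + C A * X ^ p + C B := by
    rw [← Count_f_pow, Count_g, ← pow_mul, ← pow_succ', mul_comm (p / 2) 2, Count_two_mul_half p hp]
  have h2 : Count_N p A B = Count_f p A B * Count_g p A B ^ 2
      + 2 * Count_f p A B * Count_g p A B + Count_f p A B - (X ^ p + X) * (X ^ p - X) ^ 2 := by
    unfold Count_N
    ring
  rw [h2, h1]
  ring

lemma Count_N_natDegree (hp : 5 ≤ p) : (Count_N p A B).natDegree = 2 * p + 1 := by
  rw [Count_N_eq p A B hp]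
  have hg : (Count_g p A B).natDegree ≤ 3 * (p / 2) := by
    unfold Count_g
    refine (natDegree_pow_le).trans ?_
    rw [Count_f_natDegree, mul_comm]
  have hf := Count_f_natDegree p A B
  have h2 := Count_two_mul_half p hp
  have hrest : (C A * X ^ p + C B + 2 * Count_f p A B * Count_g p A B + Count_f p A B
      + X ^ (p + 2) - X ^ 3 : (ZMod p)[X]).natDegree < 2 * p + 1 := by
    have hfg : (2 * Count_f p A B * Count_g p A B).natDegree ≤ 2 * p := by
      refine natDegree_mul_le.trans ?_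
      have : (2 * Count_f p A B).natDegree ≤ 3 := by
        refine natDegree_mul_le.trans ?_
        rw [hf]
        have : (2 : (ZMod p)[X]).natDegree = 0 := natDegree_ofNat 2
        omega
      omega
    have h3 : (C A * X ^ p : (ZMod p)[X]).natDegree ≤ 2 * p :=
      (natDegree_C_mul_X_pow_le A p).trans (by omega)
    have h4 : (C B : (ZMod p)[X]).natDegree ≤ 2 * p := by simp
    have h5 : (X ^ (p + 2) : (ZMod p)[X]).natDegree ≤ 2 * p := by
      rw [natDegree_X_pow]; omega
    have h6 : (X ^ 3 : (ZMod p)[X]).natDegree ≤ 2 * p := by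
      rw [natDegree_X_pow]; omega
    have h7 : (Count_f p A B).natDegree ≤ 2 * p := by omega
    refine Nat.lt_succ_of_le ?_
    refine (natDegree_sub_le_of_le (natDegree_add_le_of_degree_le (natDegree_add_le_of_degree_le
      (natDegree_add_le_of_degree_le (natDegree_add_le_of_degree_le h3 h4) hfg) h7) h5) h6).trans ?_
    simp
  rw [natDegree_add_eq_left_of_natDegree_lt (by rwa [natDegree_X_pow]), natDegree_X_pow]

lemma Count_N_eval (a : ZMod p) :
    (Count_N p A B).eval a = (a ^ 3 + A * a + B) * ((a ^ 3 + A * a + B) ^ (p / 2) + 1) ^ 2 := by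
  unfold Count_N
  rw [eval_sub, eval_mul, eval_mul, eval_pow, eval_pow, Count_X_pow_sub_X_eval, eval_add,
    Count_f_eval, Count_g_eval]
  simp

lemma Count_sq_dvd_second (a : ZMod p) :
    (X - C a) ^ 2 ∣ ((X ^ p + X) * (X ^ p - X) ^ 2 : (ZMod p)[X]) :=
  Dvd.dvd.mul_left (pow_dvd_pow_of_dvd (Count_dvd_X_pow_sub_X p a) 2) _

lemma Count_dvd_N (a : ZMod p) : (X - C a) ^ (Count_e p A B a) ∣ Count_N p A B := by
  unfold Count_e
  split_ifs with h0 hsq
  · rw [pow_one, dvd_iff_isRoot, IsRoot.def, Count_N_eval, h0, zero_mul]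
  · simp
  · have hg : (a ^ 3 + A * a + B) ^ (p / 2) = -1 := by
      rcases ZMod.pow_div_two_eq_neg_one_or_one p h0 with h | h
      · exact absurd ((ZMod.euler_criterion p h0).2 h) hsq
      · exact h
    have h1 : (X - C a) ∣ Count_g p A B + 1 := by
      rw [dvd_iff_isRoot, IsRoot.def, eval_add, Count_g_eval, hg]
      simp
    unfold Count_N
    exact dvd_sub (Dvd.dvd.mul_left (pow_dvd_pow_of_dvd h1 2) _) (Count_sq_dvd_second p a)

lemma Count_not_sq_dvd_f (hΔ : 4 * A ^ 3 + 27 * B ^ 2 ≠ 0) (a : ZMod p) :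
    ¬ (X - C a) ^ 2 ∣ Count_f p A B := by
  rintro ⟨h, hh⟩
  have h1 : a ^ 3 + A * a + B = 0 := by
    rw [← Count_f_eval, hh]
    simp
  have h2 : 3 * a ^ 2 + A = 0 := by
    have e1 : (derivative (Count_f p A B)).eval a = 3 * a ^ 2 + A := by
      simp only [Count_f, derivative_add, derivative_X_pow, derivative_mul, derivative_C,
        derivative_X, eval_add, eval_mul, eval_pow, eval_X, eval_C, zero_mul, mul_one, zero_add,
        add_zero, eval_zero]
      norm_num
    rw [← e1, hh, derivative_mul, derivative_pow]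
    simp
  apply hΔ
  have hA : A = -3 * a ^ 2 := by linear_combination h2
  have hB : B = 2 * a ^ 3 := by
    rw [hA] at h1
    linear_combination h1
  rw [hA, hB]
  ring

lemma Count_not_dvd_N (hp : 5 ≤ p) (hΔ : 4 * A ^ 3 + 27 * B ^ 2 ≠ 0) (a : ZMod p)
    (he : Count_e p A B a < 2) : ¬ (X - C a) ^ (Count_e p A B a + 1) ∣ Count_N p A B := by
  unfold Count_e at he ⊢
  split_ifs at he ⊢ with h0 hsq
  · intro hd
    have h1 : (X - C a) ^ 2 ∣ Count_f p A B * (Count_g p A B + 1) ^ 2 := by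
      have := dvd_add hd (Count_sq_dvd_second p a)
      unfold Count_N at this
      rwa [sub_add_cancel] at this
    have h2 : IsCoprime (X - C a) (Count_g p A B + 1) := by
      refine (irreducible_X_sub_C a).coprime_iff_not_dvd.2 ?_
      rw [dvd_iff_isRoot, IsRoot.def, eval_add, Count_g_eval, h0, zero_pow (by omega)]
      simp
    exact Count_not_sq_dvd_f p A B hΔ a ((h2.pow (m := 2) (n := 2)).dvd_of_dvd_mul_right h1)
  · rw [zero_add, pow_one, dvd_iff_isRoot, IsRoot.def, Count_N_eval,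
      (ZMod.euler_criterion p h0).1 hsq]
    have h2 : (2 : ZMod p) ≠ 0 := by
      intro h
      have : ((2 : ℕ) : ZMod p) = 0 := by exact_mod_cast h
      rw [ZMod.natCast_eq_zero_iff] at this
      exact absurd (Nat.le_of_dvd (by norm_num) this) (by omega)
    have : ((1 : ZMod p) + 1) = 2 := by norm_num
    rw [this]
    exact mul_ne_zero h0 (pow_ne_zero _ h2)
  · omega

/-- **the degree of `x(φ η - η)`** -/
theorem Count_rdeg (hp : 5 ≤ p) (hΔ : 4 * A ^ 3 + 27 * B ^ 2 ≠ 0) :
    rdeg (algebraMap (ZMod p)[X] (RatFunc (ZMod p)) (Count_N p A B) /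
      algebraMap (ZMod p)[X] (RatFunc (ZMod p)) ((X ^ p - X) ^ 2))
      = 1 + ∑ a, (2 - Count_e p A B a) := by
  rw [← Count_prod_X_sub_C]
  exact Count_rdeg_aux _ _ (Count_e_le p A B) (Count_dvd_N p A B) (Count_not_dvd_N p A B hp hΔ)
    (by rw [Count_N_natDegree p A B hp, ZMod.card])

end specific

end Fermat.Agent.S52
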