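import Fermat.Agent.S52.Short

/-!
# S52 / FB : shared definitions for the Frobenius equation `φ² - tφ + p = 0`

`k` a field, `K = RatFunc k`, `L` any field extension of `K` (in the application an algebraic
closure of `K`).  `E : y² = x³ + A x + B` with `A B : k`.  A point of `E(L)` whose `x`-coordinate
lies in `K` has a degree `xdeg` (the degree of the rational function `x`).
-/

set_option autoImplicit false

namespace Fermat.Agent.S52

open Polynomial

/-- The degree of a rational function. -/
noncomputable def rdeg {k : Type*} [Field k] (r : RatFunc k) : ℕ :=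
  max r.num.natDegree r.denom.natDegree

section
variable {k : Type*} [Field k] (L : Type*) [Field L] [Algebra k L] [Algebra (RatFunc k) L]
  [IsScalarTower k (RatFunc k) L] (A B : k)

/-- The curve `y² = x³ + A x + B` (`A B : k`) over the extension `L`. -/
abbrev EL : WeierstrassCurve.Affine L := short (algebraMap k L A) (algebraMap k L B)

variable {L A B}

/-- The `x`-coordinate of `P` is a rational function (or `P = 0`). -/
def HasRatX : (EL L A B).Point → Prop
  | 0 => True
  | .some x _ _ => ∃ r : RatFunc k, algebraMap (RatFunc k) L r = x

open Classical in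
/-- The degree of the `x`-coordinate of `P` (`0` for `P = 0`, junk `0` if `x ∉ K`). -/
noncomputable def xdeg : (EL L A B).Point → ℕ
  | 0 => 0
  | .some x _ _ => if h : ∃ r : RatFunc k, algebraMap (RatFunc k) L r = x then rdeg h.choose else 0

/-- `P = (r, yy * s)` with `r s : K` (or `P = 0`): the "odd `k`-rational maps" `E → E`,
where `yy ^ 2 = X ^ 3 + A X + B`. -/
def IsOddPt (yy : L) : (EL L A B).Point → Prop
  | 0 => True
  | .some x y _ => ∃ r s : RatFunc k, algebraMap (RatFunc k) L r = x ∧
      yy * algebraMap (RatFunc k) L s = y

end


section frob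
variable (p : ℕ) [Fact p.Prime] {F : Type*} [Field F] [Algebra (ZMod p) F] [DecidableEq F]

omit [DecidableEq F] in
lemma algebraMap_zmod_pow (a : ZMod p) : (algebraMap (ZMod p) F a) ^ p = algebraMap (ZMod p) F a := by
  rw [← map_pow, ZMod.pow_card]

omit [DecidableEq F] in
/-- The `p`-power ring endomorphism of a field extension of `ZMod p`. -/
noncomputable def frobHom : F →+* F :=
  haveI : CharP F p := charP_of_injective_algebraMap (algebraMap (ZMod p) F).injective p
  frobenius F p

omit [DecidableEq F] in
lemma frobHom_apply (x : F) : frobHom p x = x ^ p := rfl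

/-- The Frobenius endomorphism `(x, y) ↦ (x ^ p, y ^ p)` of `E(F)`, `E` defined over `ZMod p`. -/
noncomputable def frobPt (A B : ZMod p) :
    (short (algebraMap (ZMod p) F A) (algebraMap (ZMod p) F B)).Point →+
      (short (algebraMap (ZMod p) F A) (algebraMap (ZMod p) F B)).Point :=
  mapShort' (frobHom p) (algebraMap_zmod_pow p A) (algebraMap_zmod_pow p B)

end frob

end Fermat.Agent.S52
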