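import Fermat.Agent.S52.FB.MainSubst
import Fermat.Agent.S52.FB.Parallelogram
import Fermat.Agent.S52.FB.Quad
set_option autoImplicit false
set_option linter.unusedSectionVars false
namespace Fermat.Agent.S52
open Polynomial WeierstrassCurve.Affine

/-! ### FB6, part 3: the Frobenius equation at the generic point -/

section
variable (p : ℕ) [Fact p.Prime] (A B : ZMod p)

/-- `χ = Φ² - t Φ + p` -/
noncomputable def Main_chi (F : Type*) [Field F] [Algebra (ZMod p) F] [DecidableEq F] :
    (short (algebraMap (ZMod p) F A) (algebraMap (ZMod p) F B)).Point →+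
      (short (algebraMap (ZMod p) F A) (algebraMap (ZMod p) F B)).Point :=
  (frobPt (F := F) p A B).comp (frobPt (F := F) p A B)
    - ((p : ℤ) + 1 - (Nat.card (short A B).Point : ℤ)) • frobPt (F := F) p A B
    + (p : ℤ) • AddMonoidHom.id _

lemma Main_chi_apply {F : Type*} [Field F] [Algebra (ZMod p) F] [DecidableEq F]
    (P : (short (algebraMap (ZMod p) F A) (algebraMap (ZMod p) F B)).Point) :
    Main_chi p A B F P = frobPt p A B (frobPt p A B P)
      - ((p : ℤ) + 1 - (Nat.card (short A B).Point : ℤ)) • frobPt p A B P + (p : ℤ) • P := rfl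

lemma Main_map_chi {F₁ F₂ : Type*} [Field F₁] [Field F₂] [Algebra (ZMod p) F₁]
    [Algebra (ZMod p) F₂] [DecidableEq F₁] [DecidableEq F₂] (j : F₁ →+* F₂)
    (P : (short (algebraMap (ZMod p) F₁ A) (algebraMap (ZMod p) F₁ B)).Point) :
    mapShort' j (Main_map_zmod p j A) (Main_map_zmod p j B) (Main_chi p A B F₁ P)
      = Main_chi p A B F₂ (mapShort' j (Main_map_zmod p j A) (Main_map_zmod p j B) P) := by
  rw [Main_chi_apply, Main_chi_apply, map_add, map_sub, map_zsmul, map_zsmul, Main_map_frobPt,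
    Main_map_frobPt]

variable {A B}
variable {L : Type*} [Field L] [Algebra (ZMod p) L] [Algebra (RatFunc (ZMod p)) L]
  [IsScalarTower (ZMod p) (RatFunc (ZMod p)) L] [DecidableEq L]

/-- Frobenius on the group of odd points -/
noncomputable def Main_frobOdd (hp2 : p % 2 = 1) {yy : L}
    (hyy : yy ^ 2 = algebraMap (RatFunc (ZMod p)) L (Main_f A B)) :
    Main_oddSub A B yy hyy →+ Main_oddSub A B yy hyy :=
  ((frobPt p A B).comp (Main_oddSub A B yy hyy).subtype).codRestrict _
    fun P => Main_isOddPt_frob p hp2 hyy P.2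

theorem Main_generic [IsAlgClosed L] [Algebra.IsAlgebraic (RatFunc (ZMod p)) L] (hp : 5 ≤ p)
    (hΔ : 4 * A ^ 3 + 27 * B ^ 2 ≠ 0) {yy : L}
    (hη : (EL L A B).Nonsingular (algebraMap (RatFunc (ZMod p)) L RatFunc.X) yy) :
    (2 : ℤ) • Main_chi p A B L (.some _ _ hη) = 0 := by
  have hp2 : p % 2 = 1 := by
    rcases (Fact.out : p.Prime).eq_two_or_odd with h | h
    · omega
    · exact h
  have hyy : yy ^ 2 = algebraMap (RatFunc (ZMod p)) L (Main_f A B) := by
    rw [Main_map_f]
    exact (short_equation _ _ _ _).1 hη.1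
  have hηodd : IsOddPt yy (.some _ _ hη : (EL L A B).Point) :=
    ⟨RatFunc.X, 1, rfl, by rw [map_one, mul_one]⟩
  set G := Main_oddSub A B yy hyy with hG
  set Φ : G →+ G := Main_frobOdd p hp2 hyy with hΦdef
  set η : G := ⟨.some _ _ hη, hηodd⟩ with hηdef
  have hrat : ∀ P : G, HasRatX (P : (EL L A B).Point) := fun P => Main_hasRatX_of_isOddPt P.2
  have hΦcoe : ∀ P : G, ((Φ P : G) : (EL L A B).Point) = frobPt p A B P := fun P => rfl
  have key := quad_frobenius (G := G) (fun P => (xdeg (P : (EL L A B).Point) : ℤ))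
    (fun x y => by
      have := xdeg_parallelogram hΔ (Count_two_ne_zero p hp) (x : (EL L A B).Point) y (hrat x)
        (hrat y) (hrat (x + y)) (hrat (x - y))
      simp only [AddSubgroup.coe_add, AddSubgroup.coe_sub]
      exact_mod_cast this)
    Φ (p : ℤ)
    (fun x => by
      simp only [hΦcoe]
      rw [Main_xdeg_frob p (hrat x)]
      push_cast
      ring)
    η
    (by
      simp only [hηdef]
      rw [Count_xdeg_some hη RatFunc.X rfl, rdeg_X]
      rfl)
    (by
      simp only [AddSubgroup.coe_add, hΦcoe]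
      have := Main_hmul p hp2 hyy hη (α := ((η + Φ η : G) : (EL L A B).Point)) (η + Φ η).2
      simp only [AddSubgroup.coe_add, hΦcoe] at this
      rw [this, pow_two]
      push_cast
      rfl)
  have hcount : (xdeg ((Φ η - η : G) : (EL L A B).Point) : ℤ) = (Nat.card (short A B).Point : ℤ) := by
    have := xdeg_frob_sub p hp A B hΔ yy hη (Main_frob_nonsingular p hη)
    rw [AddSubgroup.coe_sub, hΦcoe]
    simp only [hηdef]
    rw [Main_frobPt_some, this]
  simp only [hcount] at key
  set β : G := Φ (Φ η) - (1 + (p : ℤ) - (Nat.card (short A B).Point : ℤ)) • Φ η + (p : ℤ) • η with hβ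
  have hβcoe : (β : (EL L A B).Point) = Main_chi p A B L (.some _ _ hη) := by
    rw [Main_chi_apply, hβ]
    simp only [AddSubgroup.coe_add, AddSubgroup.coe_sub, AddSubgroup.coe_zsmul, hΦcoe]
    rw [add_comm (1 : ℤ) (p : ℤ)]
  have hβ0 : xdeg (β : (EL L A B).Point) = 0 := by exact_mod_cast key
  have hβodd : IsOddPt yy (β : (EL L A B).Point) := β.2
  rw [← hβcoe, two_zsmul]
  generalize (β : (EL L A B).Point) = b at hβ0 hβodd
  rcases b with _ | ⟨x, y, h⟩
  · exact add_zero _
  · obtain ⟨rfl, -⟩ := Main_of_xdeg_eq_zero hyy h hβodd hβ0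
    exact Main_two_nsmul_eq_zero h

end

end Fermat.Agent.S52
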