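import Fermat.Agent.S52.FB.Count
set_option autoImplicit false
set_option linter.unusedSectionVars false
namespace Fermat.Agent.S52
open Polynomial WeierstrassCurve.Affine

/-! ### FB6, part 1: the group of odd points -/

section odd
variable {k : Type*} [Field k] {L : Type*} [Field L] [Algebra k L] [Algebra (RatFunc k) L]
  [IsScalarTower k (RatFunc k) L] {A B : k}

/-- `f = X³ + A X + B` as a rational function -/
noncomputable def Main_f (A B : k) : RatFunc k :=
  RatFunc.X ^ 3 + RatFunc.C A * RatFunc.X + RatFunc.C B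

lemma Main_map_C (c : k) : algebraMap (RatFunc k) L (RatFunc.C c) = algebraMap k L c := by
  rw [← RatFunc.algebraMap_eq_C, ← IsScalarTower.algebraMap_apply]

lemma Main_map_f : algebraMap (RatFunc k) L (Main_f A B)
    = (algebraMap (RatFunc k) L RatFunc.X) ^ 3
      + algebraMap k L A * algebraMap (RatFunc k) L RatFunc.X + algebraMap k L B := by
  simp only [Main_f, map_add, map_mul, map_pow, Main_map_C]

lemma Main_isOddPt_zero (yy : L) : IsOddPt yy (0 : (EL L A B).Point) := trivial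

lemma Main_isOddPt_some {yy x y : L} (h : (EL L A B).Nonsingular x y) :
    IsOddPt yy (.some x y h : (EL L A B).Point) ↔
      ∃ r s : RatFunc k, algebraMap (RatFunc k) L r = x ∧ yy * algebraMap (RatFunc k) L s = y :=
  Iff.rfl

lemma Main_hasRatX_of_isOddPt {yy : L} {P : (EL L A B).Point} (h : IsOddPt yy P) : HasRatX P := by
  rcases P with _ | ⟨x, y, hxy⟩
  · trivial
  · obtain ⟨r, s, hr, -⟩ := h
    exact ⟨r, hr⟩

lemma Main_isOddPt_neg {yy : L} {P : (EL L A B).Point} (h : IsOddPt yy P) : IsOddPt yy (-P) := by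
  rcases P with _ | ⟨x, y, hxy⟩
  · trivial
  · obtain ⟨r, s, hr, hs⟩ := h
    rw [Point.neg_some, Main_isOddPt_some]
    refine ⟨r, -s, hr, ?_⟩
    rw [short_negY, map_neg, mul_neg, hs]

lemma Main_isOddPt_add [DecidableEq L] {yy : L}
    (hyy : yy ^ 2 = algebraMap (RatFunc k) L (Main_f A B))
    {P Q : (EL L A B).Point} (hP : IsOddPt yy P) (hQ : IsOddPt yy Q) : IsOddPt yy (P + Q) := by
  rcases P with _ | ⟨x₁, y₁, h₁⟩
  · change IsOddPt yy (0 + Q)
    rwa [zero_add]
  rcases Q with _ | ⟨x₂, y₂, h₂⟩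
  · change IsOddPt yy (_ + 0)
    rwa [add_zero]
  obtain ⟨r₁, s₁, hr₁, hs₁⟩ := hP
  obtain ⟨r₂, s₂, hr₂, hs₂⟩ := hQ
  by_cases hxy : x₁ = x₂ ∧ y₁ = (EL L A B).negY x₂ y₂
  · rw [Point.add_of_Y_eq hxy.1 hxy.2]
    trivial
  rw [Point.add_some hxy, Main_isOddPt_some]
  have hℓ : ∃ m : RatFunc k, (EL L A B).slope x₁ x₂ y₁ y₂ = yy * algebraMap (RatFunc k) L m := by
    by_cases hx : x₁ = x₂
    · have hy : y₁ ≠ (EL L A B).negY x₂ y₂ := fun h => hxy ⟨hx, h⟩
      rw [slope_of_Y_ne hx hy]
      have hy1 : y₁ ≠ 0 := by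
        intro h0
        have e1 := (short_equation _ _ _ _).1 h₁.1
        have e2 := (short_equation _ _ _ _).1 h₂.1
        rw [← hx, ← e1, h0] at e2
        have : y₂ = 0 := by simpa using e2
        apply hy
        rw [short_negY, h0, this, neg_zero]
      have hyy0 : yy ≠ 0 := by
        rintro rfl
        exact hy1 (by rw [← hs₁, zero_mul])
      have hs0 : algebraMap (RatFunc k) L s₁ ≠ 0 := by
        intro h0
        exact hy1 (by rw [← hs₁, h0, mul_zero])
      refine ⟨(3 * r₁ ^ 2 + RatFunc.C A) / (2 * Main_f A B * s₁), ?_⟩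
      have h2 : (2 : L) ≠ 0 := by
        intro h2
        apply hy
        have e1 := (short_equation _ _ _ _).1 h₁.1
        have e2 := (short_equation _ _ _ _).1 h₂.1
        rw [← hx, ← e1] at e2
        rw [short_negY]
        have h3 : (y₂ - y₁) ^ 2 = 0 := by linear_combination e2 - y₁ * y₂ * h2 + y₁ ^ 2 * h2
        have h4 : y₂ = y₁ := sub_eq_zero.1 (by simpa using h3)
        rw [h4]
        linear_combination y₁ * h2
      simp only [map_div₀, map_add, map_mul, map_pow, map_ofNat, Main_map_C, ← hyy, hr₁, short_a₁,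
        short_a₂, short_a₄, short_negY, ← hs₁]
      have e : yy * algebraMap (RatFunc k) L s₁ - -(yy * algebraMap (RatFunc k) L s₁)
          = 2 * (yy * algebraMap (RatFunc k) L s₁) := by ring
      rw [e]
      field_simp
      ring
    · rw [slope_of_X_ne hx]
      refine ⟨(s₁ - s₂) / (r₁ - r₂), ?_⟩
      simp only [map_div₀, map_sub, hr₁, hr₂, ← hs₁, ← hs₂]
      ring
  obtain ⟨m, hm⟩ := hℓ
  have hx3 : algebraMap (RatFunc k) L (Main_f A B * m ^ 2 - r₁ - r₂)
      = (EL L A B).addX x₁ x₂ ((EL L A B).slope x₁ x₂ y₁ y₂) := by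
    simp only [map_sub, map_mul, map_pow, ← hyy, hr₁, hr₂, hm, addX, short_a₁, short_a₂]
    ring
  refine ⟨Main_f A B * m ^ 2 - r₁ - r₂, -(m * ((Main_f A B * m ^ 2 - r₁ - r₂) - r₁) + s₁), hx3, ?_⟩
  rw [addY, negAddY, short_negY, ← hx3, hm, ← hs₁, ← hr₁]
  simp only [map_neg, map_add, map_mul, map_sub]
  ring

/-- the group of odd points -/
def Main_oddSub [DecidableEq L] (A B : k) (yy : L)
    (hyy : yy ^ 2 = algebraMap (RatFunc k) L (Main_f A B)) : AddSubgroup (EL L A B).Point where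
  carrier := {P | IsOddPt yy P}
  add_mem' := fun hP hQ => Main_isOddPt_add hyy hP hQ
  zero_mem' := trivial
  neg_mem' := fun hP => Main_isOddPt_neg hP

lemma Main_xdeg_zero : xdeg (0 : (EL L A B).Point) = 0 := rfl

lemma Main_xdeg_neg (P : (EL L A B).Point) : xdeg (-P) = xdeg P := by
  rcases P with _ | ⟨x, y, hxy⟩
  · rfl
  · rw [Point.neg_some]
    rfl

lemma Main_f_eq : Main_f A B = algebraMap k[X] (RatFunc k) (X ^ 3 + C A * X + C B) := by
  simp only [Main_f, map_add, map_mul, map_pow, RatFunc.algebraMap_X, RatFunc.algebraMap_C]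

lemma Main_f_intDegree : (Main_f A B).intDegree = 3 := by
  rw [Main_f_eq, RatFunc.intDegree_polynomial]
  have : (X ^ 3 + C A * X + C B : k[X]).natDegree = 3 := by compute_degree!
  rw [this]
  rfl

lemma Main_f_ne_zero : Main_f A B ≠ 0 := by
  intro h
  have := Main_f_intDegree (A := A) (B := B)
  rw [h, RatFunc.intDegree_zero] at this
  omega

/-- `f s² = const` forces `s = 0`. -/
lemma Main_s_eq_zero {s : RatFunc k} {c : k} (h : Main_f A B * s ^ 2 = RatFunc.C c) : s = 0 := by
  by_contra hs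
  have h1 := congrArg RatFunc.intDegree h
  rw [RatFunc.intDegree_mul Main_f_ne_zero (pow_ne_zero 2 hs), pow_two,
    RatFunc.intDegree_mul hs hs, Main_f_intDegree, RatFunc.intDegree_C] at h1
  omega

/-- an odd point of degree `0` is a `k`-rational `2`-torsion point -/
lemma Main_of_xdeg_eq_zero {yy : L} (hyy : yy ^ 2 = algebraMap (RatFunc k) L (Main_f A B))
    {x y : L} (h : (EL L A B).Nonsingular x y)
    (hodd : IsOddPt yy (.some x y h : (EL L A B).Point))
    (hd : xdeg (.some x y h : (EL L A B).Point) = 0) :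
    y = 0 ∧ ∃ c : k, x = algebraMap k L c := by
  obtain ⟨r, s, hr, hs⟩ := hodd
  rw [Count_xdeg_some h r hr, rdeg_eq_zero_iff] at hd
  obtain ⟨c, rfl⟩ := hd
  rw [Main_map_C] at hr
  have e := (short_equation _ _ _ _).1 h.1
  have h1 : Main_f A B * s ^ 2 = RatFunc.C (c ^ 3 + A * c + B) := by
    apply (algebraMap (RatFunc k) L).injective
    rw [map_mul, map_pow, ← hyy, Main_map_C, map_add, map_add, map_mul, map_pow, hr, ← e, ← hs]
    ring
  have hs0 := Main_s_eq_zero h1
  refine ⟨by rw [← hs, hs0, map_zero, mul_zero], c, hr.symm⟩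

lemma Main_two_nsmul_eq_zero [DecidableEq L] {x : L} (h : (EL L A B).Nonsingular x 0) :
    (.some x 0 h : (EL L A B).Point) + .some x 0 h = 0 :=
  Point.add_self_of_Y_eq (by rw [short_negY, neg_zero])

end odd

section frob
variable (p : ℕ) [Fact p.Prime] {A B : ZMod p}

lemma Main_map_zmod {F₁ F₂ : Type*} [Field F₁] [Field F₂] [Algebra (ZMod p) F₁]
    [Algebra (ZMod p) F₂] (j : F₁ →+* F₂) (a : ZMod p) :
    j (algebraMap (ZMod p) F₁ a) = algebraMap (ZMod p) F₂ a :=
  RingHom.congr_fun (Subsingleton.elim (j.comp (algebraMap (ZMod p) F₁)) (algebraMap (ZMod p) F₂)) a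

lemma Main_frob_nonsingular {F : Type*} [Field F] [Algebra (ZMod p) F] {x y : F}
    (h : (short (algebraMap (ZMod p) F A) (algebraMap (ZMod p) F B)).Nonsingular x y) :
    (short (algebraMap (ZMod p) F A) (algebraMap (ZMod p) F B)).Nonsingular (x ^ p) (y ^ p) :=
  short_map_nonsingular' (frobHom p) (algebraMap_zmod_pow p A) (algebraMap_zmod_pow p B) h

lemma Main_frobPt_some {F : Type*} [Field F] [Algebra (ZMod p) F] [DecidableEq F] {x y : F}
    (h : (short (algebraMap (ZMod p) F A) (algebraMap (ZMod p) F B)).Nonsingular x y) :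
    frobPt p A B (.some x y h) = .some (x ^ p) (y ^ p) (Main_frob_nonsingular p h) :=
  mapShort'_some _ _ _ h

/-- ring homomorphisms commute with Frobenius -/
lemma Main_map_frobPt {F₁ F₂ : Type*} [Field F₁] [Field F₂] [Algebra (ZMod p) F₁]
    [Algebra (ZMod p) F₂] [DecidableEq F₁] [DecidableEq F₂] (j : F₁ →+* F₂)
    (P : (short (algebraMap (ZMod p) F₁ A) (algebraMap (ZMod p) F₁ B)).Point) :
    mapShort' j (Main_map_zmod p j A) (Main_map_zmod p j B) (frobPt p A B P)
      = frobPt p A B (mapShort' j (Main_map_zmod p j A) (Main_map_zmod p j B) P) := by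
  rcases P with _ | ⟨x, y, h⟩
  · change mapShort' j _ _ (frobPt p A B 0) = frobPt p A B (mapShort' j _ _ 0)
    simp only [map_zero]
  · simp only [Main_frobPt_some, mapShort'_some, map_pow]

variable {L : Type*} [Field L] [Algebra (ZMod p) L] [Algebra (RatFunc (ZMod p)) L]
  [IsScalarTower (ZMod p) (RatFunc (ZMod p)) L] [DecidableEq L]

lemma Main_isOddPt_frob (hp2 : p % 2 = 1) {yy : L}
    (hyy : yy ^ 2 = algebraMap (RatFunc (ZMod p)) L (Main_f A B))
    {P : (EL L A B).Point} (hP : IsOddPt yy P) : IsOddPt yy (frobPt p A B P) := by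
  rcases P with _ | ⟨x, y, h⟩
  · change IsOddPt yy (frobPt p A B 0)
    rw [map_zero]
    trivial
  · obtain ⟨r, s, hr, hs⟩ := hP
    rw [Main_frobPt_some, Main_isOddPt_some]
    refine ⟨r ^ p, Main_f A B ^ (p / 2) * s ^ p, by rw [map_pow, hr], ?_⟩
    rw [map_mul, map_pow, map_pow, ← hyy, ← hs, mul_pow, ← pow_mul, ← mul_assoc, ← pow_succ']
    congr 2
    omega

lemma Main_xdeg_frob {P : (EL L A B).Point} (hP : HasRatX P) :
    xdeg (frobPt p A B P) = p * xdeg P := by
  rcases P with _ | ⟨x, y, h⟩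
  · change xdeg (frobPt p A B 0) = p * xdeg (0 : (EL L A B).Point)
    rw [map_zero, Main_xdeg_zero, mul_zero]
  · obtain ⟨r, hr⟩ := hP
    rw [Main_frobPt_some, Count_xdeg_some h r hr, Count_xdeg_some _ (r ^ p) (by rw [map_pow, hr]),
      rdeg_pow]

end frob

end Fermat.Agent.S52
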