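import Fermat.Agent.S52.FB.MainOdd
set_option autoImplicit false
set_option linter.unusedSectionVars false
namespace Fermat.Agent.S52
open Polynomial WeierstrassCurve.Affine

/-! ### FB6, part 2: substitution homomorphisms -/

lemma Main_exists_extend {K L M : Type*} [Field K] [Field L] [Algebra K L]
    [Algebra.IsAlgebraic K L] [Field M] [IsAlgClosed M] (φ : K →+* M) :
    ∃ τ : L →+* M, ∀ x, τ (algebraMap K L x) = φ x := by
  letI := φ.toAlgebra
  exact ⟨(IsAlgClosed.lift : L →ₐ[K] M).toRingHom, fun x => (IsAlgClosed.lift : L →ₐ[K] M).commutes x⟩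

/-- the `k`-algebra homomorphism `k(X) → L`, `X ↦ x`, for transcendental `x` -/
noncomputable def Main_phi {k L : Type*} [Field k] [Field L] [Algebra k L] (x : L)
    (hx : Transcendental k x) : RatFunc k →ₐ[k] L :=
  (IntermediateField.val _).comp (RatFunc.algEquivOfTranscendental x hx).toAlgHom

lemma Main_phi_X {k L : Type*} [Field k] [Field L] [Algebra k L] (x : L)
    (hx : Transcendental k x) : Main_phi x hx RatFunc.X = x := by
  simp [Main_phi]

section
variable (p : ℕ) [Fact p.Prime] {A B : ZMod p}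
variable {L : Type*} [Field L] [Algebra (ZMod p) L] [Algebra (RatFunc (ZMod p)) L]
  [IsScalarTower (ZMod p) (RatFunc (ZMod p)) L] [DecidableEq L]

/-- the action of a ring endomorphism of `L` on `E(L)` -/
noncomputable abbrev Main_T (A B : ZMod p) (τ : L →+* L) : (EL L A B).Point →+ (EL L A B).Point :=
  mapShort' τ (Main_map_zmod p τ A) (Main_map_zmod p τ B)

lemma Main_T_eta (τ : L →+* L) {xx yy x y : L} (hη : (EL L A B).Nonsingular xx yy)
    (h : (EL L A B).Nonsingular x y) (hτ : τ xx = x) :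
    Main_T p A B τ (.some xx yy hη) = .some x y h ∨ Main_T p A B τ (.some xx yy hη) = -.some x y h := by
  rw [Main_T, mapShort'_some]
  exact Point.X_eq_iff.1 hτ

lemma Main_xdeg_T (τ : L →+* L) (σ : RatFunc (ZMod p) →ₐ[ZMod p] RatFunc (ZMod p))
    (hτσ : ∀ r, τ (algebraMap (RatFunc (ZMod p)) L r) = algebraMap (RatFunc (ZMod p)) L (σ r))
    {P : (EL L A B).Point} (hP : HasRatX P) :
    xdeg (Main_T p A B τ P) = xdeg P * rdeg (σ RatFunc.X) := by
  rcases P with _ | ⟨x, y, h⟩
  · change xdeg (Main_T p A B τ 0) = xdeg (0 : (EL L A B).Point) * _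
    rw [map_zero, Main_xdeg_zero, zero_mul]
  · obtain ⟨r, hr⟩ := hP
    rw [Main_T, mapShort'_some, Count_xdeg_some h r hr,
      Count_xdeg_some _ (σ r) (by rw [← hτσ, hr]), rdeg_algHom]

/-- **multiplicativity of the degree** for `1 + Φ` -/
theorem Main_hmul [IsAlgClosed L] [Algebra.IsAlgebraic (RatFunc (ZMod p)) L] (hp2 : p % 2 = 1)
    {yy : L} (hyy : yy ^ 2 = algebraMap (RatFunc (ZMod p)) L (Main_f A B))
    (hη : (EL L A B).Nonsingular (algebraMap (RatFunc (ZMod p)) L RatFunc.X) yy)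
    {α : (EL L A B).Point} (hα : IsOddPt yy α) :
    xdeg (α + frobPt p A B α)
      = xdeg ((.some _ _ hη : (EL L A B).Point) + frobPt p A B (.some _ _ hη)) * xdeg α := by
  have hηodd : IsOddPt yy (.some _ _ hη : (EL L A B).Point) :=
    ⟨RatFunc.X, 1, rfl, by rw [map_one, mul_one]⟩
  have hγ : HasRatX ((.some _ _ hη : (EL L A B).Point) + frobPt p A B (.some _ _ hη)) :=
    Main_hasRatX_of_isOddPt (Main_isOddPt_add hyy hηodd (Main_isOddPt_frob p hp2 hyy hηodd))
  rcases α with _ | ⟨x, y, h⟩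
  · change xdeg (0 + frobPt p A B 0) = _ * xdeg (0 : (EL L A B).Point)
    rw [map_zero, add_zero, Main_xdeg_zero, mul_zero]
  by_cases hd : xdeg (.some x y h : (EL L A B).Point) = 0
  · obtain ⟨rfl, c, rfl⟩ := Main_of_xdeg_eq_zero hyy h hα hd
    rw [hd, mul_zero, Main_frobPt_some]
    have hp0 : p ≠ 0 := (Fact.out : p.Prime).ne_zero
    simp only [algebraMap_zmod_pow, zero_pow hp0]
    rw [Main_two_nsmul_eq_zero, Main_xdeg_zero]
  · obtain ⟨r, s, hr, hs⟩ := hα
    rw [Count_xdeg_some h r hr] at hd ⊢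
    have hrC : ¬ ∃ c, r = RatFunc.C c := fun hc => hd ((rdeg_eq_zero_iff r).2 hc)
    have htr : Transcendental (ZMod p) r := RatFunc.transcendental_of_ne_C r hrC
    set σ : RatFunc (ZMod p) →ₐ[ZMod p] RatFunc (ZMod p) := Main_phi r htr with hσ
    have hσX : σ RatFunc.X = r := Main_phi_X r htr
    obtain ⟨τ, hτ⟩ := Main_exists_extend (L := L)
      ((algebraMap (RatFunc (ZMod p)) L).comp σ.toRingHom)
    have hτσ : ∀ r, τ (algebraMap (RatFunc (ZMod p)) L r) = algebraMap (RatFunc (ZMod p)) L (σ r) :=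
      fun r => hτ r
    have h1 := Main_xdeg_T p τ σ hτσ hγ
    rw [hσX, map_add, Main_T, Main_map_frobPt] at h1
    rw [← h1]
    rcases Main_T_eta p τ hη h (by rw [hτσ, hσX, hr]) with e | e
    · rw [Main_T] at e
      rw [e]
    · rw [Main_T] at e
      rw [e, map_neg, ← neg_add, Main_xdeg_neg]

end

end Fermat.Agent.S52
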