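import Fermat.Agent.S52.FB.Defs
set_option autoImplicit false
namespace Fermat.Agent.S52
open Polynomial
variable {k : Type*} [Field k]

/-- `rdeg r = [k(X) : k(r)]` (Mathlib's lemma on the way to Lüroth's theorem). -/
theorem rdeg_eq_finrank (r : RatFunc k) :
    rdeg r = Module.finrank (IntermediateField.adjoin k ({r} : Set (RatFunc k))) (RatFunc k) :=
  (RatFunc.finrank_eq_max_natDegree r).symm

theorem RatDeg_natDegree_eq {a b c d : k[X]} (hab : IsCoprime a b) (hcd : IsCoprime c d)
    (h : a * d = c * b) : a.natDegree = c.natDegree ∧ b.natDegree = d.natDegree := by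
  have h1 : a ∣ c := hab.dvd_of_dvd_mul_right (Dvd.intro _ h)
  have h2 : c ∣ a := hcd.dvd_of_dvd_mul_right (Dvd.intro _ h.symm)
  have h3 : b ∣ d := hab.symm.dvd_of_dvd_mul_left (Dvd.intro_left _ h.symm)
  have h4 : d ∣ b := hcd.symm.dvd_of_dvd_mul_left (Dvd.intro_left _ h)
  exact ⟨Polynomial.natDegree_eq_of_degree_eq (Polynomial.degree_eq_degree_of_associated
      (associated_of_dvd_dvd h1 h2)),
    Polynomial.natDegree_eq_of_degree_eq (Polynomial.degree_eq_degree_of_associated
      (associated_of_dvd_dvd h3 h4))⟩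

theorem rdeg_div (a b : k[X]) (hb : b ≠ 0) (h : IsCoprime a b) :
    rdeg (algebraMap k[X] (RatFunc k) a / algebraMap k[X] (RatFunc k) b)
      = max a.natDegree b.natDegree := by
  set r := algebraMap k[X] (RatFunc k) a / algebraMap k[X] (RatFunc k) b with hr
  have hb' : algebraMap k[X] (RatFunc k) b ≠ 0 := RatFunc.algebraMap_ne_zero hb
  have hd' : algebraMap k[X] (RatFunc k) r.denom ≠ 0 := RatFunc.algebraMap_ne_zero r.denom_ne_zero
  have e : r.num * b = a * r.denom := by
    apply RatFunc.algebraMap_injective k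
    rw [map_mul, map_mul]
    have h1 := RatFunc.num_div_denom r
    rw [hr] at h1 ⊢
    rw [div_eq_div_iff hd' hb'] at h1
    exact h1
  obtain ⟨h1, h2⟩ := RatDeg_natDegree_eq (RatFunc.isCoprime_num_denom r) h e
  rw [rdeg, h1, h2]

theorem rdeg_X : rdeg (RatFunc.X : RatFunc k) = 1 := by
  simp [rdeg]

theorem rdeg_pow (r : RatFunc k) (n : ℕ) : rdeg (r ^ n) = n * rdeg r := by
  have h := rdeg_div (r.num ^ n) (r.denom ^ n) (pow_ne_zero n r.denom_ne_zero)
    ((RatFunc.isCoprime_num_denom r).pow)
  rw [map_pow, map_pow, ← div_pow, RatFunc.num_div_denom] at h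
  rw [h, natDegree_pow, natDegree_pow, rdeg, Nat.mul_max_mul_left]

theorem rdeg_eq_zero_iff (r : RatFunc k) : rdeg r = 0 ↔ ∃ c : k, r = RatFunc.C c := by
  rw [rdeg, Nat.max_eq_zero_iff, RatFunc.eq_C_iff]

/-- degree of a composition `r ∘ s`, `s = σ X`. -/
theorem rdeg_algHom (σ : RatFunc k →ₐ[k] RatFunc k) (r : RatFunc k) :
    rdeg (σ r) = rdeg r * rdeg (σ RatFunc.X) := by
  have e1 : IntermediateField.adjoin k ({σ r} : Set (RatFunc k)) =
      (IntermediateField.adjoin k ({r} : Set (RatFunc k))).map σ := by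
    rw [IntermediateField.adjoin_map, Set.image_singleton]
  have e2 : IntermediateField.adjoin k ({σ RatFunc.X} : Set (RatFunc k)) =
      (⊤ : IntermediateField k (RatFunc k)).map σ := by
    rw [← RatFunc.adjoin_X, IntermediateField.adjoin_map, Set.image_singleton]
  have hle : IntermediateField.adjoin k ({σ r} : Set (RatFunc k)) ≤
      IntermediateField.adjoin k ({σ RatFunc.X} : Set (RatFunc k)) := by
    rw [e1, e2]
    exact IntermediateField.map_mono σ le_top
  rw [rdeg_eq_finrank, rdeg_eq_finrank r, rdeg_eq_finrank (σ RatFunc.X),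
    ← IntermediateField.relfinrank_mul_finrank_top hle]
  congr 1
  rw [e1, e2, IntermediateField.relfinrank_map_map, IntermediateField.relfinrank_top_right]

end Fermat.Agent.S52
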